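import Mathlib

/-!
# Case I of Fermat's Last Theorem via Sophie Germain / Legendre

If `p` is an odd prime and `q` is an auxiliary prime such that
* `x ^ p + y ^ p + z ^ p = 0` in `ZMod q` forces `x * y * z = 0`, and
* `p` is not a `p`-th power in `ZMod q`,
then every solution of `a ^ p + b ^ p = c ^ p` in coprime integers has `p ∣ a * b * c`.
-/

namespace Fermat.Agent.Lib.Kummer

open Finset

/-- The cofactor `(x ^ p + y ^ p) / (x + y)`. -/
def sgPhi (p : ℕ) (x y : ℤ) : ℤ := ∑ i ∈ range p, x ^ i * (-y) ^ (p - 1 - i)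

lemma sgPhi_mul (p : ℕ) (hp : Odd p) (x y : ℤ) : sgPhi p x y * (x + y) = x ^ p + y ^ p := by
  have := geom_sum₂_mul x (-y) p
  rw [Odd.neg_pow hp] at this
  simpa [sgPhi, sub_neg_eq_add] using this

lemma sg_coprime {p : ℕ} (hp : p.Prime) (hodd : Odd p) {x y z : ℤ} (hxy : IsCoprime x y)
    (h : x ^ p + y ^ p + z ^ p = 0) (hz : ¬ (p : ℤ) ∣ z) :
    IsCoprime (x + y) (sgPhi p x y) := by
  have hp0 : p ≠ 0 := hp.ne_zero
  have hzp : z ^ p = -((x + y) * sgPhi p x y) := by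
    have := sgPhi_mul p hodd x y
    linarith
  apply isCoprime_of_prime_dvd
  · rintro ⟨h1, -⟩
    apply hz
    have : z ^ p = 0 := by rw [hzp, h1]; ring
    rw [pow_eq_zero_iff hp0] at this
    rw [this]
    exact dvd_zero _
  · intro r hr h1 h2
    have h3 : r ∣ x - (-y) := by simpa using h1
    have h4 := (dvd_geom_sum₂_iff_of_dvd_sub (n := p) h3).mp h2
    have hrz : r ∣ z ^ p := by
      rw [hzp]
      exact (dvd_mul_of_dvd_left h1 _).neg_right
    rcases hr.dvd_or_dvd h4 with h5 | h5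
    · -- `r ∣ p`, so `r` is associated to `p`, hence `p ∣ z`
      have hpr : Prime (p : ℤ) := Nat.prime_iff_prime_int.mp hp
      have hass : Associated r (p : ℤ) := hr.associated_of_dvd hpr h5
      apply hz
      exact hpr.dvd_of_dvd_pow (hass.symm.dvd.trans hrz)
    · -- `r ∣ y`, hence `r ∣ x`
      have hy : r ∣ y := by
        have := hr.dvd_of_dvd_pow h5
        simpa using this
      have hx : r ∣ x := by
        have := dvd_sub h1 hy
        simpa using this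
      exact hr.not_isUnit (hxy.isUnit_of_dvd' hx hy)

lemma sg_pow {p : ℕ} (hp : p.Prime) (hodd : Odd p) {x y z : ℤ} (hxy : IsCoprime x y)
    (h : x ^ p + y ^ p + z ^ p = 0) (hz : ¬ (p : ℤ) ∣ z) :
    ∃ C T : ℤ, x + y = C ^ p ∧ sgPhi p x y = T ^ p := by
  have hc := sg_coprime hp hodd hxy h hz
  have hmul : (x + y) * sgPhi p x y = (-z) ^ p := by
    rw [mul_comm, sgPhi_mul p hodd, Odd.neg_pow hodd]
    linarith
  obtain ⟨⟨C, hC⟩, ⟨T, hT⟩⟩ := Int.eq_pow_of_mul_eq_pow_odd hc hodd hmul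
  exact ⟨C, T, hC, hT⟩

lemma sg_aux {p q : ℕ} [hp : Fact p.Prime] [hq : Fact q.Prime] (hodd : Odd p)
    (h1 : ∀ x y z : ZMod q, x ^ p + y ^ p + z ^ p = 0 → x * y * z = 0)
    (h2 : ∀ t : ZMod q, t ^ p ≠ (p : ZMod q))
    {x y z : ℤ} (hxy : IsCoprime x y) (hyz : IsCoprime y z) (hzx : IsCoprime z x)
    (h : x ^ p + y ^ p + z ^ p = 0)
    (hpx : ¬ (p : ℤ) ∣ x) (hpy : ¬ (p : ℤ) ∣ y) (hpz : ¬ (p : ℤ) ∣ z)
    (hqx : (q : ℤ) ∣ x) : False := by
  have hp0 : p ≠ 0 := hp.out.ne_zero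
  have hqprime : Prime (q : ℤ) := Nat.prime_iff_prime_int.mp hq.out
  obtain ⟨C, -, hC, -⟩ := sg_pow hp.out hodd hxy h hpz
  obtain ⟨A, T, hA, hT⟩ := sg_pow hp.out hodd hyz (by linarith) hpx
  obtain ⟨B, -, hB, -⟩ := sg_pow hp.out hodd hzx (by linarith) hpy
  -- reductions mod `q`
  have hx0 : (x : ZMod q) = 0 := (ZMod.intCast_zmod_eq_zero_iff_dvd x q).mpr hqx
  have hCq : (C : ZMod q) ^ p = (y : ZMod q) := by
    have := congrArg (Int.cast : ℤ → ZMod q) hC
    push_cast at this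
    rw [← this, hx0, zero_add]
  have hBq : (B : ZMod q) ^ p = (z : ZMod q) := by
    have := congrArg (Int.cast : ℤ → ZMod q) hB
    push_cast at this
    rw [← this, hx0, add_zero]
  have hAq : (A : ZMod q) ^ p = (y : ZMod q) + (z : ZMod q) := by
    have := congrArg (Int.cast : ℤ → ZMod q) hA
    push_cast at this
    rw [← this]
  have hy0 : (y : ZMod q) ≠ 0 := by
    intro hy
    have hqy : (q : ℤ) ∣ y := (ZMod.intCast_zmod_eq_zero_iff_dvd y q).mp hy
    exact hqprime.not_isUnit (hxy.isUnit_of_dvd' hqx hqy)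
  have hz0 : (z : ZMod q) ≠ 0 := by
    intro hz
    have hqz : (q : ℤ) ∣ z := (ZMod.intCast_zmod_eq_zero_iff_dvd z q).mp hz
    exact hqprime.not_isUnit (hzx.isUnit_of_dvd' hqz hqx)
  have hC0 : (C : ZMod q) ≠ 0 := by
    intro hC0
    apply hy0
    rw [← hCq, hC0, zero_pow hp0]
  have hB0 : (B : ZMod q) ≠ 0 := by
    intro hB0
    apply hz0
    rw [← hBq, hB0, zero_pow hp0]
  have hsum : (C : ZMod q) ^ p + (B : ZMod q) ^ p + (-(A : ZMod q)) ^ p = 0 := by
    rw [Odd.neg_pow hodd, hCq, hBq, hAq]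
    ring
  have hprod := h1 _ _ _ hsum
  have hA0 : (A : ZMod q) = 0 := by
    rcases mul_eq_zero.mp hprod with h3 | h3
    · rcases mul_eq_zero.mp h3 with h4 | h4
      · exact absurd h4 hC0
      · exact absurd h4 hB0
    · simpa using h3
  -- hence `z = -y` mod `q`
  have hzy : -(z : ZMod q) = (y : ZMod q) := by
    have : (y : ZMod q) + (z : ZMod q) = 0 := by rw [← hAq, hA0, zero_pow hp0]
    linear_combination -this
  have hTq : (T : ZMod q) ^ p = (p : ZMod q) * (y : ZMod q) ^ (p - 1) := by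
    have := congrArg (Int.cast : ℤ → ZMod q) hT
    rw [sgPhi] at this
    push_cast at this
    rw [← this, hzy]
    have hterm : ∀ i ∈ range p, (y : ZMod q) ^ i * (y : ZMod q) ^ (p - 1 - i)
        = (y : ZMod q) ^ (p - 1) := by
      intro i hi
      rw [← pow_add]
      congr 1
      have := mem_range.mp hi
      omega
    rw [sum_congr rfl hterm]
    simp
  -- so `p = (T / C ^ (p - 1)) ^ p`
  apply h2 ((T : ZMod q) * ((C : ZMod q) ^ (p - 1))⁻¹)
  have hCp : (C : ZMod q) ^ (p * (p - 1)) ≠ 0 := pow_ne_zero _ hC0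
  rw [mul_pow, inv_pow, hTq, ← hCq, ← pow_mul, ← pow_mul, mul_comm (p - 1) p]
  rw [mul_assoc, mul_inv_cancel₀ hCp, mul_one]

/-- **Sophie Germain / Legendre criterion** for Case I of Fermat's Last Theorem. -/
theorem caseI (p q : ℕ) [hp : Fact p.Prime] [hq : Fact q.Prime] (hp2 : p ≠ 2)
    (h1 : ∀ x y z : ZMod q, x ^ p + y ^ p + z ^ p = 0 → x * y * z = 0)
    (h2 : ∀ t : ZMod q, t ^ p ≠ (p : ZMod q))
    (a b c : ℤ) (h : a ^ p + b ^ p = c ^ p) (hg : Int.gcd a b = 1) : (p : ℤ) ∣ a * b * c := by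
  by_contra hnd
  have hodd : Odd p := hp.out.odd_of_ne_two hp2
  have hp0 : 0 < p := hp.out.pos
  have hpprime : Prime (p : ℤ) := Nat.prime_iff_prime_int.mp hp.out
  have hqprime : Prime (q : ℤ) := Nat.prime_iff_prime_int.mp hq.out
  have hpa : ¬ (p : ℤ) ∣ a := fun hd => hnd (Dvd.dvd.mul_right (Dvd.dvd.mul_right hd b) c)
  have hpb : ¬ (p : ℤ) ∣ b := fun hd => hnd (Dvd.dvd.mul_right (Dvd.dvd.mul_left hd a) c)
  have hpc : ¬ (p : ℤ) ∣ -c := fun hd => hnd (Dvd.dvd.mul_left ((dvd_neg.mp hd)) (a * b))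
  have hab : IsCoprime a b := Int.isCoprime_iff_gcd_eq_one.mpr hg
  have hbc : IsCoprime b (-c) := by
    have h3 : IsCoprime (b ^ p) (a ^ p) := (hab.symm).pow
    have h4 : IsCoprime (b ^ p) (a ^ p + b ^ p * 1) := by
      have := (h3.symm.add_mul_left_left 1).symm
      simpa using this
    rw [mul_one, h] at h4
    exact ((IsCoprime.pow_iff hp0 hp0).mp h4).neg_right
  have hca : IsCoprime (-c) a := by
    have h3 : IsCoprime (a ^ p) (b ^ p) := hab.pow
    have h4 : IsCoprime (a ^ p) (b ^ p + a ^ p * 1) := by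
      have := (h3.symm.add_mul_left_left 1).symm
      simpa using this
    rw [mul_one, add_comm, h] at h4
    exact ((IsCoprime.pow_iff hp0 hp0).mp h4).symm.neg_left
  have heq : a ^ p + b ^ p + (-c) ^ p = 0 := by
    rw [Odd.neg_pow hodd, h]
    ring
  have hq3 : ((a : ZMod q)) * (b : ZMod q) * ((-c : ℤ) : ZMod q) = 0 := by
    apply h1
    have := congrArg (Int.cast : ℤ → ZMod q) heq
    push_cast at this ⊢
    exact this
  rcases mul_eq_zero.mp hq3 with h3 | h3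
  · rcases mul_eq_zero.mp h3 with h4 | h4
    · exact sg_aux hodd h1 h2 hab hbc hca heq hpa hpb hpc
        ((ZMod.intCast_zmod_eq_zero_iff_dvd a q).mp h4)
    · exact sg_aux hodd h1 h2 hbc hca hab (by linarith) hpb hpc hpa
        ((ZMod.intCast_zmod_eq_zero_iff_dvd b q).mp h4)
  · exact sg_aux hodd h1 h2 hca hab hbc (by linarith) hpc hpa hpb
      ((ZMod.intCast_zmod_eq_zero_iff_dvd (-c) q).mp h3)


/-! ### The four instances `p = 5, 7, 11, 13` -/

lemma sg_h2_11 : ∀ t : ZMod 23, t ^ 11 ≠ ((11 : ℕ) : ZMod 23) := by decide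

lemma sg_h2_5 : ∀ t : ZMod 11, t ^ 5 ≠ ((5 : ℕ) : ZMod 11) := by decide

lemma sg_h2_7 : ∀ t : ZMod 29, t ^ 7 ≠ ((7 : ℕ) : ZMod 29) := by decide

lemma sg_h2_13 : ∀ t : ZMod 53, t ^ 13 ≠ ((13 : ℕ) : ZMod 53) := by decide

lemma sg_pow_11 : ∀ t : ZMod 23, t ^ 11 = 0 ∨ t ^ 11 = 1 ∨ t ^ 11 = -1 := by decide

lemma sg_pow_5 : ∀ t : ZMod 11, t ^ 5 = 0 ∨ t ^ 5 = 1 ∨ t ^ 5 = -1 := by decide

lemma sg_pow_7 : ∀ t : ZMod 29, t ^ 7 = 0 ∨ t ^ 7 = 1 ∨ t ^ 7 = -1 ∨ t ^ 7 = 12 ∨ t ^ 7 = -12 := by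
  decide

lemma sg_pow_13 : ∀ t : ZMod 53,
    t ^ 13 = 0 ∨ t ^ 13 = 1 ∨ t ^ 13 = -1 ∨ t ^ 13 = 23 ∨ t ^ 13 = -23 := by
  decide

lemma sg_h1_11 : ∀ x y z : ZMod 23, x ^ 11 + y ^ 11 + z ^ 11 = 0 → x * y * z = 0 := by
  intro x y z h
  have : Fact (Nat.Prime 23) := ⟨by norm_num⟩
  have key : x ^ 11 = 0 ∨ y ^ 11 = 0 ∨ z ^ 11 = 0 := by
    rcases sg_pow_11 x with hx | hx | hx <;> rcases sg_pow_11 y with hy | hy | hy <;>
      rcases sg_pow_11 z with hz | hz | hz <;> rw [hx, hy, hz] at h <;>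
      first
        | exact Or.inl hx
        | exact Or.inr (Or.inl hy)
        | exact Or.inr (Or.inr hz)
        | exact absurd h (by decide)
  rcases key with h | h | h <;> rw [pow_eq_zero_iff (by norm_num)] at h <;> simp [h]

lemma sg_h1_5 : ∀ x y z : ZMod 11, x ^ 5 + y ^ 5 + z ^ 5 = 0 → x * y * z = 0 := by
  intro x y z h
  have : Fact (Nat.Prime 11) := ⟨by norm_num⟩
  have key : x ^ 5 = 0 ∨ y ^ 5 = 0 ∨ z ^ 5 = 0 := by
    rcases sg_pow_5 x with hx | hx | hx <;> rcases sg_pow_5 y with hy | hy | hy <;>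
      rcases sg_pow_5 z with hz | hz | hz <;> rw [hx, hy, hz] at h <;>
      first
        | exact Or.inl hx
        | exact Or.inr (Or.inl hy)
        | exact Or.inr (Or.inr hz)
        | exact absurd h (by decide)
  rcases key with h | h | h <;> rw [pow_eq_zero_iff (by norm_num)] at h <;> simp [h]

lemma sg_h1_7 : ∀ x y z : ZMod 29, x ^ 7 + y ^ 7 + z ^ 7 = 0 → x * y * z = 0 := by
  intro x y z h
  have : Fact (Nat.Prime 29) := ⟨by norm_num⟩
  have key : x ^ 7 = 0 ∨ y ^ 7 = 0 ∨ z ^ 7 = 0 := by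
    rcases sg_pow_7 x with hx | hx | hx | hx | hx <;>
      rcases sg_pow_7 y with hy | hy | hy | hy | hy <;>
      rcases sg_pow_7 z with hz | hz | hz | hz | hz <;> rw [hx, hy, hz] at h <;>
      first
        | exact Or.inl hx
        | exact Or.inr (Or.inl hy)
        | exact Or.inr (Or.inr hz)
        | exact absurd h (by decide)
  rcases key with h | h | h <;> rw [pow_eq_zero_iff (by norm_num)] at h <;> simp [h]

lemma sg_h1_13 : ∀ x y z : ZMod 53, x ^ 13 + y ^ 13 + z ^ 13 = 0 → x * y * z = 0 := by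
  intro x y z h
  have : Fact (Nat.Prime 53) := ⟨by norm_num⟩
  have key : x ^ 13 = 0 ∨ y ^ 13 = 0 ∨ z ^ 13 = 0 := by
    rcases sg_pow_13 x with hx | hx | hx | hx | hx <;>
      rcases sg_pow_13 y with hy | hy | hy | hy | hy <;>
      rcases sg_pow_13 z with hz | hz | hz | hz | hz <;> rw [hx, hy, hz] at h <;>
      first
        | exact Or.inl hx
        | exact Or.inr (Or.inl hy)
        | exact Or.inr (Or.inr hz)
        | exact absurd h (by decide)
  rcases key with h | h | h <;> rw [pow_eq_zero_iff (by norm_num)] at h <;> simp [h]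

/-- Case I of Fermat's Last Theorem for exponent `11`. -/
theorem caseI_11 (a b c : ℤ) (h : a ^ 11 + b ^ 11 = c ^ 11) (hg : Int.gcd a b = 1) :
    (11 : ℤ) ∣ a * b * c :=
  have : Fact (Nat.Prime 11) := ⟨by norm_num⟩
  have : Fact (Nat.Prime 23) := ⟨by norm_num⟩
  caseI 11 23 (by norm_num) sg_h1_11 sg_h2_11 a b c h hg

/-- Case I of Fermat's Last Theorem for exponent `5`. -/
theorem caseI_5 (a b c : ℤ) (h : a ^ 5 + b ^ 5 = c ^ 5) (hg : Int.gcd a b = 1) :
    (5 : ℤ) ∣ a * b * c :=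
  have : Fact (Nat.Prime 5) := ⟨by norm_num⟩
  have : Fact (Nat.Prime 11) := ⟨by norm_num⟩
  caseI 5 11 (by norm_num) sg_h1_5 sg_h2_5 a b c h hg

/-- Case I of Fermat's Last Theorem for exponent `7`. -/
theorem caseI_7 (a b c : ℤ) (h : a ^ 7 + b ^ 7 = c ^ 7) (hg : Int.gcd a b = 1) :
    (7 : ℤ) ∣ a * b * c :=
  have : Fact (Nat.Prime 7) := ⟨by norm_num⟩
  have : Fact (Nat.Prime 29) := ⟨by norm_num⟩
  caseI 7 29 (by norm_num) sg_h1_7 sg_h2_7 a b c h hg

/-- Case I of Fermat's Last Theorem for exponent `13`. -/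
theorem caseI_13 (a b c : ℤ) (h : a ^ 13 + b ^ 13 = c ^ 13) (hg : Int.gcd a b = 1) :
    (13 : ℤ) ∣ a * b * c :=
  have : Fact (Nat.Prime 13) := ⟨by norm_num⟩
  have : Fact (Nat.Prime 53) := ⟨by norm_num⟩
  caseI 13 53 (by norm_num) sg_h1_13 sg_h2_13 a b c h hg

end Fermat.Agent.Lib.Kummer
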