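import Mathlib

/-!
# Kummer's descent for the second case of Fermat's equation

`K` is the `p`-th cyclotomic field (`p` an odd prime), `𝓞 K` is assumed to be a principal ideal
ring, and Kummer's lemma (a unit congruent to a rational integer modulo `p` is a `p`-th power) is
taken as a hypothesis.  We show that `x ^ p + y ^ p = z ^ p` has no solution in integers with
`x`, `y` coprime, `p ∣ z` and `z ≠ 0`.
-/

set_option autoImplicit false

namespace Fermat.Agent.Lib.Kummer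

open NumberField Polynomial


section General

variable {R : Type*} [CommRing R] [IsDomain R]

/-- In a principal ideal domain, if a product of pairwise coprime factors is a unit times an
`n`-th power, then each factor is a unit times an `n`-th power. -/
theorem exists_unit_mul_pow_of_prod_eq [IsPrincipalIdealRing R] {ι : Type*} [DecidableEq ι]
    (s : Finset ι) (f : ι → R)
    (hcop : ∀ i ∈ s, ∀ j ∈ s, i ≠ j → IsCoprime (f i) (f j)) (ε : Rˣ) (z : R) (n : ℕ)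
    (h : ∏ i ∈ s, f i = ε * z ^ n) (i : ι) (hi : i ∈ s) :
    ∃ (u : Rˣ) (ρ : R), f i = u * ρ ^ n := by
  have hprod : f i * ∏ j ∈ s.erase i, f j = ε * z ^ n := by
    rw [Finset.mul_prod_erase s f hi, h]
  have hc : IsCoprime (f i) (∏ j ∈ s.erase i, f j) := by
    apply IsCoprime.prod_right
    intro j hj
    exact hcop i hi j (Finset.mem_of_mem_erase hj) (Finset.ne_of_mem_erase hj).symm
  have hassoc : Associated (z ^ n) (f i * ∏ j ∈ s.erase i, f j) := by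
    rw [hprod]
    exact (associated_unit_mul_right (z ^ n) (ε : R) ε.isUnit)
  obtain ⟨d, hd⟩ := exists_associated_pow_of_associated_pow_mul hc hassoc
  obtain ⟨u, hu⟩ := hd
  exact ⟨u, d, by rw [← hu, mul_comm]⟩

omit [IsDomain R] in
/-- A prime not dividing any factor does not divide the product. -/
theorem not_dvd_prod_of_forall_not_dvd {ι : Type*} (s : Finset ι) (f : ι → R) {l : R}
    (hl : Prime l) (h : ∀ i ∈ s, ¬ l ∣ f i) : ¬ l ∣ ∏ i ∈ s, f i := by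
  intro hd
  obtain ⟨i, hi, hdi⟩ := (Prime.dvd_finsetProd_iff hl f).mp hd
  exact h i hi hdi

/-- Roots of unity are units. -/
theorem isUnit_of_mem_nthRootsFinset {n : ℕ} (hn : 0 < n) {η : R}
    (hη : η ∈ nthRootsFinset n (1 : R)) : IsUnit η := by
  have h1 : η ^ n = 1 := (Polynomial.mem_nthRootsFinset hn 1).1 hη
  exact IsUnit.of_pow_eq_one h1 hn.ne'

/-- The descent step of Kummer's argument, in abstract form: `R` is a principal ideal domain,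
`l = ζ₁ - 1` is a prime element, `μ` is the set of `p`-th roots of unity.  From a solution of
`x ^ p + y ^ p = ε (l ^ (m + 1) z) ^ p` normalised by `l ^ 2 ∣ x + y` we get `m = m' + 1` and a
solution with exponent `m' + 1`. -/
theorem descent_abstract [IsPrincipalIdealRing R] (p : ℕ) (hp : p.Prime)
    (ζ₁ l : R) (μ : Finset R)
    (hlp : Prime l)
    (h1μ : (1 : R) ∈ μ) (hζ₁μ : ζ₁ ∈ μ) (hcardμ : μ.card = p)
    (hfact : ∀ x y : R, x ^ p + y ^ p = ∏ η ∈ μ, (x + η * y))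
    (hpair : ∀ η₁ ∈ μ, ∀ η₂ ∈ μ, η₁ ≠ η₂ → Associated l (η₁ - η₂))
    (hζpow : ζ₁ ^ p = 1) (hζne1 : ζ₁ ≠ 1) (hζsq : ζ₁ ^ 2 ≠ 1)
    (hζ₂μ : ζ₁ ^ (p - 1) ∈ μ)
    (hass : Associated (l ^ (p - 1)) (p : R))
    (hunit : IsUnit (1 + ζ₁))
    (hka : ∀ ρ : R, ∃ a : ℤ, (p : R) ∣ ρ ^ p - (a : R))
    (kummer : ∀ (η : Rˣ) (n : ℤ), (p : R) ∣ (η : R) - (n : R) → ∃ η₁ : Rˣ, η = η₁ ^ p)
    (m : ℕ) (x y z : R) (ε : Rˣ)
    (hy : ¬ l ∣ y) (hz : ¬ l ∣ z)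
    (hxy : IsCoprime x y) (hsq : l ^ 2 ∣ x + y)
    (h : x ^ p + y ^ p = ε * (l ^ (m + 1) * z) ^ p) :
    ∃ m' : ℕ, m = m' + 1 ∧ ∃ (x' y' z' : R) (ε' : Rˣ),
      ¬ l ∣ x' ∧ ¬ l ∣ y' ∧ ¬ l ∣ z' ∧
      IsCoprime x' y' ∧ x' ^ p + y' ^ p = ε' * (l ^ (m' + 1) * z') ^ p := by
  classical
  have hp0 : p ≠ 0 := hp.ne_zero
  have hppos : 0 < p := hp.pos
  -- `l` divides all the factors
  have hdvd_all : ∀ η ∈ μ, l ∣ x + η * y := by
    have hd : l ∣ x ^ p + y ^ p := by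
      rw [h]
      exact Dvd.dvd.mul_left (dvd_pow (Dvd.dvd.mul_right
        (dvd_pow_self _ (Nat.succ_ne_zero m)) z) hp0) _
    rw [hfact] at hd
    obtain ⟨η₀, hη₀, hd0⟩ := (Prime.dvd_finsetProd_iff hlp _).mp hd
    intro η hη
    have e : x + η * y = (x + η₀ * y) + (η - η₀) * y := by ring
    rw [e]
    refine dvd_add hd0 (Dvd.dvd.mul_right ?_ y)
    by_cases hne : η = η₀
    · rw [hne, sub_self]; exact dvd_zero _
    · exact (hpair η hη η₀ hη₀ hne).dvd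
  have hdvd_all' : ∀ η ∈ μ, ∃ c, x + η * y = l * c := hdvd_all
  choose! c hc using hdvd_all'
  -- differences of the quotients
  have hdiff : ∀ η₁ ∈ μ, ∀ η₂ ∈ μ, η₁ ≠ η₂ →
      ∃ u : Rˣ, c η₁ - c η₂ = u * y ∧ η₂ * c η₁ - η₁ * c η₂ = - (u * x) := by
    intro η₁ h₁ η₂ h₂ hne
    obtain ⟨u, hu⟩ := hpair η₁ h₁ η₂ h₂ hne
    refine ⟨u, ?_, ?_⟩
    · apply mul_left_cancel₀ hlp.ne_zero
      rw [mul_sub, ← hc η₁ h₁, ← hc η₂ h₂, ← mul_assoc, hu]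
      ring
    · apply mul_left_cancel₀ hlp.ne_zero
      have e1 : l * (η₂ * c η₁ - η₁ * c η₂) = η₂ * (l * c η₁) - η₁ * (l * c η₂) := by ring
      have e2 : l * -(↑u * x) = -((l * u) * x) := by ring
      rw [e1, ← hc η₁ h₁, ← hc η₂ h₂, e2, hu]
      ring
  have hc1 : l ∣ c 1 := by
    have e := hc 1 h1μ
    rw [one_mul] at e
    rw [e, pow_two] at hsq
    exact (mul_dvd_mul_iff_left hlp.ne_zero).mp hsq
  have hnd : ∀ η ∈ μ, η ≠ 1 → ¬ l ∣ c η := by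
    intro η hη hne hd
    obtain ⟨u, hu, -⟩ := hdiff η hη 1 h1μ hne
    have h3 : l ∣ (u : R) * y := by
      rw [← hu]
      exact dvd_sub hd hc1
    rcases hlp.dvd_or_dvd h3 with h4 | h4
    · exact hlp.not_isUnit (isUnit_of_dvd_unit h4 u.isUnit)
    · exact hy h4
  -- pairwise coprimality
  have hcop : ∀ η₁ ∈ μ, ∀ η₂ ∈ μ, η₁ ≠ η₂ → IsCoprime (c η₁) (c η₂) := by
    intro η₁ h₁ η₂ h₂ hne
    obtain ⟨u, hu1, hu2⟩ := hdiff η₁ h₁ η₂ h₂ hne
    obtain ⟨a, b, hab⟩ := hxy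
    refine ⟨(↑u⁻¹ : R) * (b - a * η₂), (↑u⁻¹ : R) * (a * η₁ - b), ?_⟩
    have e1 : (↑u⁻¹ : R) * (b - a * η₂) * c η₁ + ↑u⁻¹ * (a * η₁ - b) * c η₂
        = ↑u⁻¹ * (b * (c η₁ - c η₂) - a * (η₂ * c η₁ - η₁ * c η₂)) := by ring
    have e2 : (↑u⁻¹ : R) * (b * (↑u * y) - a * -(↑u * x)) = (↑u⁻¹ * ↑u) * (a * x + b * y) := by
      ring
    rw [e1, hu1, hu2, e2, hab]
    simp
  -- the product of the quotients
  have hprod : ∏ η ∈ μ, c η = ε * l ^ (m * p) * z ^ p := by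
    apply mul_left_cancel₀ (pow_ne_zero p hlp.ne_zero)
    have e0 : ∏ _η ∈ μ, l = l ^ p := by rw [Finset.prod_const, hcardμ]
    have e1 : l ^ p * ∏ η ∈ μ, c η = ∏ η ∈ μ, (x + η * y) := by
      rw [← e0, ← Finset.prod_mul_distrib]
      exact Finset.prod_congr rfl (fun η hη => (hc η hη).symm)
    rw [e1, ← hfact, h]
    ring
  have hQ : c 1 * ∏ η ∈ μ.erase 1, c η = ε * l ^ (m * p) * z ^ p := by
    rw [Finset.mul_prod_erase μ c h1μ, hprod]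
  have hQnd : ¬ l ∣ ∏ η ∈ μ.erase 1, c η := by
    apply not_dvd_prod_of_forall_not_dvd _ _ hlp
    intro η hη
    exact hnd η (Finset.mem_of_mem_erase hη) (Finset.ne_of_mem_erase hη)
  have hpow_dvd : l ^ (m * p) ∣ c 1 := by
    apply hlp.pow_dvd_of_dvd_mul_right _ hQnd
    rw [hQ]
    exact Dvd.dvd.mul_right (Dvd.intro_left _ rfl) _
  obtain ⟨d, hd⟩ := hpow_dvd
  have hdQ : d * ∏ η ∈ μ.erase 1, c η = ε * z ^ p := by
    apply mul_left_cancel₀ (pow_ne_zero (m * p) hlp.ne_zero)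
    rw [← mul_assoc, ← hd, hQ]
    ring
  have hdnd : ¬ l ∣ d := by
    intro hdd
    have h3 : l ∣ (ε : R) * z ^ p := by
      rw [← hdQ]
      exact Dvd.dvd.mul_right hdd _
    rcases hlp.dvd_or_dvd h3 with h4 | h4
    · exact hlp.not_isUnit (isUnit_of_dvd_unit h4 ε.isUnit)
    · exact hz (hlp.dvd_of_dvd_pow h4)
  -- `m ≥ 1`
  obtain ⟨m', rfl⟩ : ∃ m', m = m' + 1 := by
    rcases Nat.eq_zero_or_pos m with h0 | h0
    · exfalso
      rw [h0, zero_mul, pow_zero, one_mul] at hd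
      exact hdnd (hd ▸ hc1)
    · exact ⟨m - 1, (Nat.sub_add_cancel h0).symm⟩
  refine ⟨m', rfl, ?_⟩
  -- modified family
  let c' : R → R := fun η => if η = 1 then d else c η
  have hc'1 : c' 1 = d := if_pos rfl
  have hc'ne : ∀ η, η ≠ 1 → c' η = c η := fun η hη => if_neg hη
  have hprod' : ∏ η ∈ μ, c' η = ε * z ^ p := by
    rw [← Finset.mul_prod_erase μ c' h1μ, hc'1, ← hdQ]
    congr 1
    apply Finset.prod_congr rfl
    intro η hη
    exact hc'ne η (Finset.ne_of_mem_erase hη)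
  have hdvd_c1 : d ∣ c 1 := ⟨l ^ ((m' + 1) * p), by rw [hd]; ring⟩
  have hcop' : ∀ η₁ ∈ μ, ∀ η₂ ∈ μ, η₁ ≠ η₂ → IsCoprime (c' η₁) (c' η₂) := by
    intro η₁ h₁ η₂ h₂ hne
    by_cases e1 : η₁ = 1
    · have e2 : η₂ ≠ 1 := fun e => hne (e1.trans e.symm)
      rw [e1, hc'1, hc'ne η₂ e2]
      exact IsCoprime.of_isCoprime_of_dvd_left (hcop 1 h1μ η₂ h₂ (Ne.symm e2)) hdvd_c1
    · by_cases e2 : η₂ = 1
      · rw [e2, hc'1, hc'ne η₁ e1]
        exact IsCoprime.of_isCoprime_of_dvd_right (hcop η₁ h₁ 1 h1μ e1) hdvd_c1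
      · rw [hc'ne η₁ e1, hc'ne η₂ e2]
        exact hcop η₁ h₁ η₂ h₂ hne
  have hpow := exists_unit_mul_pow_of_prod_eq μ c' hcop' ε z p hprod'
  -- the three roots `1`, `ζ₁`, `ζ₂ = ζ₁⁻¹`
  have hζ12 : ζ₁ * ζ₁ ^ (p - 1) = 1 := by
    rw [← pow_succ', Nat.sub_add_cancel hppos, hζpow]
  have hζ₂ne : ζ₁ ^ (p - 1) ≠ 1 := by
    intro e
    rw [e, mul_one] at hζ12
    exact hζne1 hζ12
  have hζ₁₂ne : ζ₁ ≠ ζ₁ ^ (p - 1) := by
    intro e
    apply hζsq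
    rw [pow_two]
    nth_rewrite 2 [e]
    exact hζ12
  obtain ⟨u₀, ρ₀, h0⟩ := hpow 1 h1μ
  obtain ⟨u₁, ρ₁, h1⟩ := hpow ζ₁ hζ₁μ
  obtain ⟨u₂, ρ₂, h2⟩ := hpow (ζ₁ ^ (p - 1)) hζ₂μ
  rw [hc'1] at h0
  rw [hc'ne ζ₁ hζne1] at h1
  rw [hc'ne _ hζ₂ne] at h2
  have hlin : c ζ₁ + ζ₁ * c (ζ₁ ^ (p - 1)) = (1 + ζ₁) * c 1 := by
    apply mul_left_cancel₀ hlp.ne_zero
    have e : l * (c ζ₁ + ζ₁ * c (ζ₁ ^ (p - 1))) = l * c ζ₁ + ζ₁ * (l * c (ζ₁ ^ (p - 1))) := by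
      ring
    have e' : l * ((1 + ζ₁) * c 1) = (1 + ζ₁) * (l * c 1) := by ring
    rw [e, e', ← hc ζ₁ hζ₁μ, ← hc _ hζ₂μ, ← hc 1 h1μ]
    have e3 : ζ₁ * (x + ζ₁ ^ (p - 1) * y) = ζ₁ * x + (ζ₁ * ζ₁ ^ (p - 1)) * y := by ring
    rw [e3, hζ12]
    ring
  obtain ⟨w, hw⟩ := hunit
  obtain ⟨v, hv⟩ : IsUnit ζ₁ := IsUnit.of_pow_eq_one hζpow hp0
  have heq : ρ₁ ^ p + ((u₁⁻¹ * v * u₂ : Rˣ) : R) * ρ₂ ^ p
      = ((u₁⁻¹ * w * u₀ : Rˣ) : R) * (l ^ ((m' + 1) * p) * ρ₀ ^ p) := by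
    have e := hlin
    rw [h1, h2, hd, h0, ← hw, ← hv] at e
    have e1 : ρ₁ ^ p + ((u₁⁻¹ * v * u₂ : Rˣ) : R) * ρ₂ ^ p
        = (↑u₁⁻¹ : R) * (↑u₁ * ρ₁ ^ p + ↑v * (↑u₂ * ρ₂ ^ p)) := by
      have e2 : (↑u₁⁻¹ : R) * ↑u₁ = 1 := by simp
      push_cast
      linear_combination (-(ρ₁ ^ p)) * e2
    rw [e1, e]
    push_cast
    ring
  have hpl : (p : R) ∣ l ^ ((m' + 1) * p) := by
    refine dvd_trans hass.symm.dvd (pow_dvd_pow l ?_)
    have : p ≤ (m' + 1) * p := Nat.le_mul_of_pos_left p (Nat.succ_pos m')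
    omega
  have hpdvd : (p : R) ∣ ρ₁ ^ p + ((u₁⁻¹ * v * u₂ : Rˣ) : R) * ρ₂ ^ p := by
    rw [heq]
    exact Dvd.dvd.mul_left (Dvd.dvd.mul_right hpl _) _
  obtain ⟨a, ha⟩ := hka ρ₁
  obtain ⟨b, hb⟩ := hka ρ₂
  have hρ₂ : ¬ l ∣ ρ₂ := by
    intro hd'
    apply hnd _ hζ₂μ hζ₂ne
    rw [h2]
    exact Dvd.dvd.mul_left (dvd_pow hd' hp0) _
  have hρ₁ : ¬ l ∣ ρ₁ := by
    intro hd'
    apply hnd _ hζ₁μ hζne1
    rw [h1]
    exact Dvd.dvd.mul_left (dvd_pow hd' hp0) _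
  have hρ₀ : ¬ l ∣ ρ₀ := by
    intro hd'
    apply hdnd
    rw [h0]
    exact Dvd.dvd.mul_left (dvd_pow hd' hp0) _
  have hldvdp : l ∣ (p : R) := by
    refine dvd_trans ?_ hass.dvd
    exact dvd_pow_self l (by have := hp.two_le; omega)
  have hpb : ¬ (p : ℤ) ∣ b := by
    intro hpb
    apply hρ₂
    have h3 : (p : R) ∣ (b : R) := by
      obtain ⟨k, hk⟩ := hpb
      exact ⟨(k : R), by rw [hk]; push_cast; ring⟩
    have h4 : (p : R) ∣ ρ₂ ^ p := by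
      have h5 := dvd_add hb h3
      rwa [sub_add_cancel] at h5
    exact hlp.dvd_of_dvd_pow (dvd_trans hldvdp h4)
  have hcopb : IsCoprime (p : ℤ) b :=
    (Prime.coprime_iff_not_dvd (Nat.prime_iff_prime_int.mp hp)).mpr hpb
  obtain ⟨s, t, hst⟩ := hcopb
  have hkum : (p : R) ∣ ((u₁⁻¹ * v * u₂ : Rˣ) : R) - ((-(t * a) : ℤ) : R) := by
    have hst' : (s : R) * (p : R) + (t : R) * (b : R) = 1 := by
      have := congrArg (Int.cast : ℤ → R) hst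
      push_cast at this
      exact this
    have e : ((u₁⁻¹ * v * u₂ : Rˣ) : R) - ((-(t * a) : ℤ) : R)
        = (t : R) * (ρ₁ ^ p + ((u₁⁻¹ * v * u₂ : Rˣ) : R) * ρ₂ ^ p) - (t : R) * (ρ₁ ^ p - a)
          - ((u₁⁻¹ * v * u₂ : Rˣ) : R) * t * (ρ₂ ^ p - b)
          + ((u₁⁻¹ * v * u₂ : Rˣ) : R) * (s * p) := by
      push_cast
      linear_combination (-((↑u₁⁻¹ : R) * ↑v * ↑u₂)) * hst'
    rw [e]
    exact dvd_add (dvd_sub (dvd_sub (Dvd.dvd.mul_left hpdvd _) (Dvd.dvd.mul_left ha _))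
      (Dvd.dvd.mul_left hb _)) (Dvd.dvd.mul_left (Dvd.intro_left _ rfl) _)
  obtain ⟨η₁, hη₁⟩ := kummer _ (-(t * a)) hkum
  refine ⟨ρ₁, (η₁ : R) * ρ₂, ρ₀, u₁⁻¹ * w * u₀, hρ₁, ?_, hρ₀, ?_, ?_⟩
  · intro hd'
    rcases hlp.dvd_or_dvd hd' with h3 | h3
    · exact hlp.not_isUnit (isUnit_of_dvd_unit h3 η₁.isUnit)
    · exact hρ₂ h3
  · have hc12 := hcop ζ₁ hζ₁μ _ hζ₂μ hζ₁₂ne
    rw [h1, h2] at hc12
    have h3 : IsCoprime (ρ₁ ^ p) (ρ₂ ^ p) := by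
      have h4 := (isCoprime_mul_unit_left_left u₁.isUnit _ _).mp hc12
      exact (isCoprime_mul_unit_left_right u₂.isUnit _ _).mp h4
    have h5 := (IsCoprime.pow_iff hppos hppos).mp h3
    exact (isCoprime_mul_unit_left_right η₁.isUnit _ _).mpr h5
  · rw [mul_pow, ← Units.val_pow_eq_pow_val, ← hη₁, heq]
    ring

/-- Kummer's descent in abstract form: the generalised Fermat equation
`x ^ p + y ^ p = ε (l ^ (m + 1) z) ^ p` has no solution with `x`, `y` coprime and `l ∤ y z`. -/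
theorem no_solution_abstract [IsPrincipalIdealRing R] (p : ℕ) (hp : p.Prime)
    (ζ₁ l : R) (μ : Finset R)
    (hlp : Prime l)
    (hμ : ∀ η, η ∈ μ ↔ η ^ p = 1) (hcardμ : μ.card = p)
    (hfact : ∀ x y : R, x ^ p + y ^ p = ∏ η ∈ μ, (x + η * y))
    (hpair : ∀ η₁ ∈ μ, ∀ η₂ ∈ μ, η₁ ≠ η₂ → Associated l (η₁ - η₂))
    (hζpow : ζ₁ ^ p = 1) (hζne1 : ζ₁ ≠ 1) (hζsq : ζ₁ ^ 2 ≠ 1)
    (hass : Associated (l ^ (p - 1)) (p : R))
    (hunit : IsUnit (1 + ζ₁))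
    (hka : ∀ ρ : R, ∃ a : ℤ, (p : R) ∣ ρ ^ p - (a : R))
    (hexsq : ∀ x y : R, ¬ l ∣ y → (∀ η ∈ μ, l ∣ x + η * y) → ∃ η ∈ μ, l ^ 2 ∣ x + η * y)
    (kummer : ∀ (η : Rˣ) (n : ℤ), (p : R) ∣ (η : R) - (n : R) → ∃ η₁ : Rˣ, η = η₁ ^ p) :
    ∀ (m : ℕ) (x y z : R) (ε : Rˣ), ¬ l ∣ y → ¬ l ∣ z → IsCoprime x y →
      x ^ p + y ^ p = ε * (l ^ (m + 1) * z) ^ p → False := by
  have hp0 : p ≠ 0 := hp.ne_zero
  have h1μ : (1 : R) ∈ μ := (hμ 1).mpr (one_pow p)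
  have hζ₁μ : ζ₁ ∈ μ := (hμ ζ₁).mpr hζpow
  have hζ₂μ : ζ₁ ^ (p - 1) ∈ μ := by
    rw [hμ, ← pow_mul, mul_comm, pow_mul, hζpow, one_pow]
  intro m
  induction m with
  | zero =>
    intro x y z ε hy hz hxy h
    have hdvd_all : ∀ η ∈ μ, l ∣ x + η * y := by
      have hd : l ∣ x ^ p + y ^ p := by
        rw [h]
        exact Dvd.dvd.mul_left (dvd_pow (Dvd.dvd.mul_right
          (dvd_pow_self _ (Nat.succ_ne_zero 0)) z) hp0) _
      rw [hfact] at hd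
      obtain ⟨η₀, hη₀, hd0⟩ := (Prime.dvd_finsetProd_iff hlp _).mp hd
      intro η hη
      have e : x + η * y = (x + η₀ * y) + (η - η₀) * y := by ring
      rw [e]
      refine dvd_add hd0 (Dvd.dvd.mul_right ?_ y)
      by_cases hne : η = η₀
      · rw [hne, sub_self]; exact dvd_zero _
      · exact (hpair η hη η₀ hη₀ hne).dvd
    obtain ⟨η, hη, hsq⟩ := hexsq x y hy hdvd_all
    have hηp : η ^ p = 1 := (hμ η).mp hη
    have hηu : IsUnit η := IsUnit.of_pow_eq_one hηp hp0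
    have hy' : ¬ l ∣ η * y := by
      intro hd
      rcases hlp.dvd_or_dvd hd with h3 | h3
      · exact hlp.not_isUnit (isUnit_of_dvd_unit h3 hηu)
      · exact hy h3
    have hxy' : IsCoprime x (η * y) := (isCoprime_mul_unit_left_right hηu _ _).mpr hxy
    have h' : x ^ p + (η * y) ^ p = ε * (l ^ (0 + 1) * z) ^ p := by
      rw [mul_pow, hηp, one_mul, h]
    obtain ⟨m', hm', -⟩ := descent_abstract p hp ζ₁ l μ hlp h1μ hζ₁μ hcardμ hfact hpair hζpow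
      hζne1 hζsq hζ₂μ hass hunit hka kummer 0 x (η * y) z ε hy' hz hxy' hsq h'
    exact Nat.succ_ne_zero m' hm'.symm
  | succ k ih =>
    intro x y z ε hy hz hxy h
    have hdvd_all : ∀ η ∈ μ, l ∣ x + η * y := by
      have hd : l ∣ x ^ p + y ^ p := by
        rw [h]
        exact Dvd.dvd.mul_left (dvd_pow (Dvd.dvd.mul_right
          (dvd_pow_self _ (Nat.succ_ne_zero (k + 1))) z) hp0) _
      rw [hfact] at hd
      obtain ⟨η₀, hη₀, hd0⟩ := (Prime.dvd_finsetProd_iff hlp _).mp hd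
      intro η hη
      have e : x + η * y = (x + η₀ * y) + (η - η₀) * y := by ring
      rw [e]
      refine dvd_add hd0 (Dvd.dvd.mul_right ?_ y)
      by_cases hne : η = η₀
      · rw [hne, sub_self]; exact dvd_zero _
      · exact (hpair η hη η₀ hη₀ hne).dvd
    obtain ⟨η, hη, hsq⟩ := hexsq x y hy hdvd_all
    have hηp : η ^ p = 1 := (hμ η).mp hη
    have hηu : IsUnit η := IsUnit.of_pow_eq_one hηp hp0
    have hy' : ¬ l ∣ η * y := by
      intro hd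
      rcases hlp.dvd_or_dvd hd with h3 | h3
      · exact hlp.not_isUnit (isUnit_of_dvd_unit h3 hηu)
      · exact hy h3
    have hxy' : IsCoprime x (η * y) := (isCoprime_mul_unit_left_right hηu _ _).mpr hxy
    have h' : x ^ p + (η * y) ^ p = ε * (l ^ (k + 1 + 1) * z) ^ p := by
      rw [mul_pow, hηp, one_mul, h]
    obtain ⟨m', hm', x', y', z', ε', -, hy'', hz'', hxy'', h''⟩ :=
      descent_abstract p hp ζ₁ l μ hlp h1μ hζ₁μ hcardμ hfact hpair hζpow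
      hζne1 hζsq hζ₂μ hass hunit hka kummer (k + 1) x (η * y) z ε hy' hz hxy' hsq h'
    have hkm : m' = k := by omega
    subst hkm
    exact ih x' y' z' ε' hy'' hz'' hxy'' h''

end General

section CaseII

variable {p : ℕ} [hp : Fact p.Prime] {K : Type*} [Field K] [NumberField K]
  [hK : IsCyclotomicExtension {p} ℚ K] {ζ : K} (hζ : IsPrimitiveRoot ζ p)

include hζ

/-- Every `p`-th power in `𝓞 K` is congruent to a rational integer modulo `p`. -/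
theorem exists_int_dvd_pow_sub (ρ : 𝓞 K) : ∃ a : ℤ, (p : 𝓞 K) ∣ ρ ^ p - (a : 𝓞 K) := by
  have : NeZero p := ⟨hp.out.ne_zero⟩
  obtain ⟨f, hf⟩ := (IsPrimitiveRoot.integralPowerBasis hζ).exists_eq_aeval' ρ
  rw [IsPrimitiveRoot.integralPowerBasis_gen] at hf
  refine ⟨f.eval 1, ?_⟩
  have hnu : (p : 𝓞 K) ∈ nonunits (𝓞 K) := by
    intro hu
    exact hζ.zeta_sub_one_prime'.not_isUnit (isUnit_of_dvd_unit hζ.toInteger_sub_one_dvd_prime' hu)
  have : CharP (𝓞 K ⧸ Ideal.span {(p : 𝓞 K)}) p := CharP.quotient (𝓞 K) p hnu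
  rw [← Ideal.mem_span_singleton, ← Ideal.Quotient.eq]
  set q := Ideal.Quotient.mk (Ideal.span {(p : 𝓞 K)}) with hq
  have h1 : q (ρ ^ p) = frobenius _ p (q ρ) := by simp [frobenius_def]
  have h2 : q ρ = Polynomial.eval₂ (Int.castRingHom _) (q hζ.toInteger) f := by
    rw [hf, Polynomial.aeval_def, Polynomial.hom_eval₂]
    congr 1
  rw [h1, h2, Polynomial.hom_eval₂]
  have h3 : (frobenius (𝓞 K ⧸ Ideal.span {(p : 𝓞 K)}) p).comp (Int.castRingHom _)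
      = Int.castRingHom _ := RingHom.ext_int _ _
  have h4 : frobenius (𝓞 K ⧸ Ideal.span {(p : 𝓞 K)}) p (q hζ.toInteger) = 1 := by
    rw [frobenius_def, ← map_pow, hζ.toInteger_isPrimitiveRoot.pow_eq_one, map_one]
  rw [h3, h4]
  have h5 : (q ((f.eval 1 : ℤ) : 𝓞 K)) = Int.castRingHom _ (f.eval 1) := by
    simp
  rw [h5, Polynomial.eval₂_at_one]

/-- If `λ ∣ x ^ p + y ^ p` then `λ` divides every factor `x + η y`. -/
theorem lam_dvd_add_mul (hodd : p ≠ 2) (x y : 𝓞 K)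
    (h : (hζ.toInteger - 1) ∣ x ^ p + y ^ p) :
    ∀ η ∈ nthRootsFinset p (1 : 𝓞 K), (hζ.toInteger - 1) ∣ x + η * y := by
  have : NeZero p := ⟨hp.out.ne_zero⟩
  have hlp : Prime (hζ.toInteger - 1) := hζ.zeta_sub_one_prime'
  have hζ' := hζ.toInteger_isPrimitiveRoot
  have hpodd : Odd p := hp.out.odd_of_ne_two hodd
  rw [hζ'.pow_add_pow_eq_prod_add_mul x y hpodd] at h
  obtain ⟨η₀, hη₀, hd⟩ := (Prime.dvd_finsetProd_iff hlp _).mp h
  intro η hη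
  have e : x + η * y = (x + η₀ * y) + (η - η₀) * y := by ring
  rw [e]
  exact dvd_add hd (Dvd.dvd.mul_right (hζ'.sub_one_dvd_sub hp.out hη hη₀) y)

/-- Among the factors `x + η y` exactly one is divisible by `λ²`; here: existence. -/
theorem exists_sq_dvd_add_mul (hodd : p ≠ 2) (x y : 𝓞 K) (hy : ¬ (hζ.toInteger - 1) ∣ y)
    (h : ∀ η ∈ nthRootsFinset p (1 : 𝓞 K), (hζ.toInteger - 1) ∣ x + η * y) :
    ∃ η ∈ nthRootsFinset p (1 : 𝓞 K), (hζ.toInteger - 1) ^ 2 ∣ x + η * y := by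
  classical
  have : NeZero p := ⟨hp.out.ne_zero⟩
  have hlp : Prime (hζ.toInteger - 1) := hζ.zeta_sub_one_prime'
  have hζ' := hζ.toInteger_isPrimitiveRoot
  have h' : ∀ η ∈ nthRootsFinset p (1 : 𝓞 K), ∃ c, x + η * y = (hζ.toInteger - 1) * c := h
  choose! c hc using h'
  have hfin : Finite (𝓞 K ⧸ Ideal.span {hζ.toInteger - 1}) :=
    hζ.finite_quotient_toInteger_sub_one hp.out.one_lt
  let _ : Fintype (𝓞 K ⧸ Ideal.span {hζ.toInteger - 1}) := Fintype.ofFinite _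
  have hcard : Fintype.card (𝓞 K ⧸ Ideal.span {hζ.toInteger - 1}) = p := by
    rw [← Nat.card_eq_fintype_card, hζ.card_quotient_toInteger_sub_one,
      hζ.norm_toInteger_sub_one_of_prime_ne_two' hodd]
    simp
  let g : 𝓞 K → 𝓞 K ⧸ Ideal.span {hζ.toInteger - 1} := fun η => Ideal.Quotient.mk _ (c η)
  have hinj : Set.InjOn g (nthRootsFinset p (1 : 𝓞 K)) := by
    intro η₁ h₁ η₂ h₂ heq
    by_contra hne
    obtain ⟨u, hu⟩ := hζ'.nthRootsFinset_pairwise_associated_sub_one_sub_of_prime hp.out h₁ h₂ hne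
    have hd : (hζ.toInteger - 1) ∣ c η₁ - c η₂ := by
      rw [← Ideal.mem_span_singleton, ← Ideal.Quotient.eq]
      exact heq
    have e : (hζ.toInteger - 1) * (c η₁ - c η₂) = (hζ.toInteger - 1) * (u * y) := by
      rw [mul_sub, ← hc η₁ h₁, ← hc η₂ h₂, ← mul_assoc, hu]
      ring
    have e' := mul_left_cancel₀ hlp.ne_zero e
    rw [e'] at hd
    rcases hlp.dvd_or_dvd hd with h3 | h3
    · exact hlp.not_isUnit (isUnit_of_dvd_unit h3 u.isUnit)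
    · exact hy h3
  have himg : (Finset.image g (nthRootsFinset p (1 : 𝓞 K))) = Finset.univ := by
    apply Finset.eq_univ_of_card
    rw [Finset.card_image_of_injOn hinj, hζ'.card_nthRootsFinset, hcard]
  have h0 : (0 : 𝓞 K ⧸ Ideal.span {hζ.toInteger - 1}) ∈
      Finset.image g (nthRootsFinset p (1 : 𝓞 K)) := by
    rw [himg]
    exact Finset.mem_univ _
  obtain ⟨η, hη, hg⟩ := Finset.mem_image.mp h0
  refine ⟨η, hη, ?_⟩
  have hdc : (hζ.toInteger - 1) ∣ c η := by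
    rw [← Ideal.mem_span_singleton, ← Ideal.Quotient.eq_zero_iff_mem]
    exact hg
  rw [hc η hη, pow_two]
  exact mul_dvd_mul_left _ hdc

/-- The generalised Fermat equation in `𝓞 K` has no solution (Kummer's descent), assuming that
`𝓞 K` is principal and Kummer's lemma. -/
theorem caseII_gen [IsPrincipalIdealRing (𝓞 K)] (hodd : p ≠ 2)
    (kummer : ∀ (η : (𝓞 K)ˣ) (n : ℤ), (p : 𝓞 K) ∣ (η : 𝓞 K) - (n : 𝓞 K) →
      ∃ η₁ : (𝓞 K)ˣ, η = η₁ ^ p)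
    (m : ℕ) (x y z : 𝓞 K) (ε : (𝓞 K)ˣ)
    (hy : ¬ (hζ.toInteger - 1) ∣ y) (hz : ¬ (hζ.toInteger - 1) ∣ z)
    (hxy : IsCoprime x y)
    (h : x ^ p + y ^ p = ε * ((hζ.toInteger - 1) ^ (m + 1) * z) ^ p) : False := by
  have : NeZero p := ⟨hp.out.ne_zero⟩
  have hlp : Prime (hζ.toInteger - 1) := hζ.zeta_sub_one_prime'
  have hζ' := hζ.toInteger_isPrimitiveRoot
  have hpodd : Odd p := hp.out.odd_of_ne_two hodd
  have h2cop : Nat.Coprime 2 p := (Nat.coprime_primes Nat.prime_two hp.out).mpr (Ne.symm hodd)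
  refine no_solution_abstract p hp.out hζ.toInteger (hζ.toInteger - 1)
    (nthRootsFinset p (1 : 𝓞 K)) hlp ?_ hζ'.card_nthRootsFinset ?_ ?_ hζ'.pow_eq_one
    (hζ'.ne_one hp.out.one_lt) ?_
    (IsCyclotomicExtension.Rat.associated_zeta_sub_one_pow_prime p hζ) ?_
    (exists_int_dvd_pow_sub hζ) (exists_sq_dvd_add_mul hζ hodd) kummer m x y z ε hy hz hxy h
  · intro η
    exact Polynomial.mem_nthRootsFinset hp.out.pos 1
  · intro x y
    exact hζ'.pow_add_pow_eq_prod_add_mul x y hpodd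
  · intro η₁ h₁ η₂ h₂ hne
    exact hζ'.nthRootsFinset_pairwise_associated_sub_one_sub_of_prime hp.out h₁ h₂ hne
  · intro e
    have h3 := (hζ'.pow_eq_one_iff_dvd 2).mp e
    have h4 := Nat.le_of_dvd (by norm_num) h3
    have h5 := hp.out.two_le
    exact hodd (le_antisymm h4 h5)
  · have h3 := hζ'.geom_sum_isUnit hp.out.two_le h2cop
    have e : ∑ i ∈ Finset.range 2, hζ.toInteger ^ i = 1 + hζ.toInteger := by
      simp [Finset.sum_range_succ]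
    rwa [e] at h3

/-- **Second case of Fermat's Last Theorem for the exponent `p`**, assuming that the ring of
integers of the `p`-th cyclotomic field is principal and Kummer's lemma: there are no integers
`x`, `y`, `z` with `x`, `y` coprime, `z ≠ 0`, `p ∣ z` and `x ^ p + y ^ p = z ^ p`. -/
theorem caseII_of_dvd [IsPrincipalIdealRing (𝓞 K)] (hodd : p ≠ 2)
    (kummer : ∀ (η : (𝓞 K)ˣ) (n : ℤ), (p : 𝓞 K) ∣ (η : 𝓞 K) - (n : 𝓞 K) →
      ∃ η₁ : (𝓞 K)ˣ, η = η₁ ^ p)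
    (x y z : ℤ) (hz : z ≠ 0) (hxy : IsCoprime x y) (hpz : (p : ℤ) ∣ z)
    (h : x ^ p + y ^ p = z ^ p) : False := by
  have : NeZero p := ⟨hp.out.ne_zero⟩
  have hlp : Prime (hζ.toInteger - 1) := hζ.zeta_sub_one_prime'
  have hpZ : Prime (p : ℤ) := Nat.prime_iff_prime_int.mp hp.out
  -- `p ∤ y`
  have hpy : ¬ (p : ℤ) ∣ y := by
    intro hpy
    have h1 : (p : ℤ) ∣ x ^ p := by
      have e : x ^ p = z ^ p - y ^ p := by rw [← h]; ring
      rw [e]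
      exact dvd_sub (dvd_pow hpz hp.out.ne_zero) (dvd_pow hpy hp.out.ne_zero)
    have h2 : (p : ℤ) ∣ x := hpZ.dvd_of_dvd_pow h1
    exact hpZ.not_isUnit (hxy.isUnit_of_dvd' h2 hpy)
  have hy' : ¬ (hζ.toInteger - 1) ∣ ((y : ℤ) : 𝓞 K) := by
    rw [IsCyclotomicExtension.Rat.zeta_sub_one_dvd_intCast_iff' p hζ]
    exact hpy
  have hz0 : ((z : ℤ) : 𝓞 K) ≠ 0 := by
    exact_mod_cast hz
  have hfin : FiniteMultiplicity (hζ.toInteger - 1) ((z : ℤ) : 𝓞 K) :=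
    FiniteMultiplicity.of_not_isUnit hlp.not_isUnit hz0
  obtain ⟨z₁, hz₁, hz₁nd⟩ := hfin.exists_eq_pow_mul_and_not_dvd
  have hldz : (hζ.toInteger - 1) ∣ ((z : ℤ) : 𝓞 K) := by
    rw [IsCyclotomicExtension.Rat.zeta_sub_one_dvd_intCast_iff' p hζ]
    exact hpz
  obtain ⟨m, hm⟩ : ∃ m, multiplicity (hζ.toInteger - 1) ((z : ℤ) : 𝓞 K) = m + 1 := by
    rcases Nat.eq_zero_or_pos (multiplicity (hζ.toInteger - 1) ((z : ℤ) : 𝓞 K)) with h0 | h0
    · exfalso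
      rw [h0, pow_zero, one_mul] at hz₁
      exact hz₁nd (hz₁ ▸ hldz)
    · exact ⟨_, (Nat.sub_add_cancel h0).symm⟩
  rw [hm] at hz₁
  refine caseII_gen hζ hodd kummer m (x : 𝓞 K) (y : 𝓞 K) z₁ 1 hy' hz₁nd
    (IsCoprime.intCast hxy) ?_
  rw [Units.val_one, one_mul, ← hz₁]
  exact_mod_cast congrArg (Int.cast : ℤ → 𝓞 K) h

end CaseII

section Final

variable {p : ℕ} [hp : Fact p.Prime]

/-- If `a ^ p + b ^ p = c ^ p` and `a`, `b` are coprime, then so are `b`, `c` and `a`, `c`. -/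
theorem isCoprime_of_fermat {a b c : ℤ} (hab : IsCoprime a b) (h : a ^ p + b ^ p = c ^ p) :
    IsCoprime a c ∧ IsCoprime b c := by
  have hp0 : 0 < p := hp.out.pos
  constructor
  · have h1 : IsCoprime a (b ^ p) := IsCoprime.pow_right hab
    have h2 : IsCoprime a (b ^ p + a ^ (p - 1) * a) := IsCoprime.add_mul_right_right h1 _
    have e : b ^ p + a ^ (p - 1) * a = c ^ p := by
      rw [← pow_succ, Nat.sub_add_cancel hp0, ← h]
      ring
    rw [e] at h2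
    exact (IsCoprime.pow_right_iff hp0).mp h2
  · have h1 : IsCoprime b (a ^ p) := IsCoprime.pow_right hab.symm
    have h2 : IsCoprime b (a ^ p + b ^ (p - 1) * b) := IsCoprime.add_mul_right_right h1 _
    have e : a ^ p + b ^ (p - 1) * b = c ^ p := by
      rw [← pow_succ, Nat.sub_add_cancel hp0, ← h]
    rw [e] at h2
    exact (IsCoprime.pow_right_iff hp0).mp h2

/-- **Second case of Fermat's Last Theorem for the exponent `p`** (Kummer), assuming that the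
ring of integers of the `p`-th cyclotomic field `K` is principal and Kummer's lemma for `K`:
there are no nonzero integers `a`, `b`, `c` with `a`, `b` coprime, `p ∣ a * b * c` and
`a ^ p + b ^ p = c ^ p`. -/
theorem caseII (hodd : p ≠ 2) (K : Type*) [Field K] [NumberField K]
    [IsCyclotomicExtension {p} ℚ K] [IsPrincipalIdealRing (𝓞 K)]
    (kummer : ∀ (η : (𝓞 K)ˣ) (n : ℤ), (p : 𝓞 K) ∣ (η : 𝓞 K) - (n : 𝓞 K) →
      ∃ η₁ : (𝓞 K)ˣ, η = η₁ ^ p)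
    (a b c : ℤ) (ha : a ≠ 0) (hb : b ≠ 0) (hc : c ≠ 0) (hab : IsCoprime a b)
    (hdvd : (p : ℤ) ∣ a * b * c) (h : a ^ p + b ^ p = c ^ p) : False := by
  have hζ := IsCyclotomicExtension.zeta_spec p ℚ K
  have hpZ : Prime (p : ℤ) := Nat.prime_iff_prime_int.mp hp.out
  have hpodd : Odd p := hp.out.odd_of_ne_two hodd
  obtain ⟨hac, hbc⟩ := isCoprime_of_fermat hab h
  rcases hpZ.dvd_or_dvd hdvd with h1 | h1
  · rcases hpZ.dvd_or_dvd h1 with h2 | h2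
    · -- `p ∣ a`: `c ^ p + (-b) ^ p = a ^ p`
      refine caseII_of_dvd hζ hodd kummer c (-b) a ha hbc.symm.neg_right h2 ?_
      rw [hpodd.neg_pow, ← h]
      ring
    · -- `p ∣ b`: `c ^ p + (-a) ^ p = b ^ p`
      refine caseII_of_dvd hζ hodd kummer c (-a) b hb hac.symm.neg_right h2 ?_
      rw [hpodd.neg_pow, ← h]
      ring
  · exact caseII_of_dvd hζ hodd kummer a b c hc hab h1 h

end Final

end Fermat.Agent.Lib.Kummer

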