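import Mathlib

/-!
# Kummer extensions `K(u^(1/p))` with `u ≡ 1 mod (ζ - 1)^p` have trivial different
-/

open NumberField Polynomial

namespace Fermat.Agent.Lib.Kummer

section poly

variable {R : Type*} [CommRing R]

/-- All coefficients of `(l X + 1)^p - u` are divisible by `l^p`. -/
theorem C_pow_dvd_shift (p : ℕ) [hp : Fact p.Prime] (l u : R) (h1 : l ^ (p - 1) ∣ (p : R))
    (h2 : l ^ p ∣ u - 1) : C (l ^ p) ∣ (C l * X + 1) ^ p - C u := by
  have hp1 : 1 ≤ p := hp.out.one_lt.le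
  rw [add_pow, Finset.sum_range_succ']
  simp only [one_pow, mul_one, pow_zero, Nat.choose_zero_right, Nat.cast_one]
  rw [add_sub_assoc, show (1 : R[X]) - C u = -C (u - 1) by simp]
  refine dvd_add (Finset.dvd_sum fun k hk => ?_) ?_
  · rw [Finset.mem_range] at hk
    by_cases hk1 : k + 1 = p
    · rw [hk1, mul_pow, ← C_pow, mul_assoc]
      exact dvd_mul_right _ _
    have hpd : (p : R[X]) ∣ ((p.choose (k + 1) : ℕ) : R[X]) := by
      have := hp.out.dvd_choose_self (Nat.succ_ne_zero k) (by omega : k + 1 < p)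
      exact Nat.cast_dvd_cast this
    obtain ⟨c, hc⟩ := hpd
    obtain ⟨d, hd⟩ := h1
    rw [hc, mul_pow, ← C_pow]
    have : (p : R[X]) = C (l ^ (p - 1)) * C d := by
      rw [← C_mul, ← hd]; simp
    rw [this]
    have hl : l ^ p = l ^ (p - 1) * l := by
      rw [← pow_succ]; congr 1; omega
    have hl' : l ^ (k + 1) = l * l ^ k := by rw [pow_succ, mul_comm]
    rw [hl, hl', C_mul, C_mul]
    exact ⟨C (l ^ k) * X ^ (k + 1) * C d * c, by ring⟩
  · rw [dvd_neg]
    exact map_dvd C h2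

end poly

section different

variable {K L : Type} [Field K] [Field L] [NumberField K] [NumberField L] [Algebra K L]

/-- If `h` is a polynomial over `𝓞 K` killing `x : 𝓞 L` and `h'(x)` is a unit, then the different of
`𝓞 L / 𝓞 K` is trivial as soon as `x` generates `L / K`. -/
theorem differentIdeal_eq_top_of_isUnit_aeval_derivative (x : 𝓞 L)
    (hx : Algebra.adjoin K {algebraMap (𝓞 L) L x} = ⊤) (h : (𝓞 K)[X]) (h0 : aeval x h = 0)
    (h1 : IsUnit (aeval x (derivative h))) : differentIdeal (𝓞 K) (𝓞 L) = ⊤ := by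
  have hint : IsIntegral (𝓞 K) x := Algebra.IsIntegral.isIntegral x
  obtain ⟨q, hq⟩ := minpoly.isIntegrallyClosed_dvd hint h0
  have hmem := aeval_derivative_mem_differentIdeal (𝓞 K) K L x hx
  have hder : aeval x (derivative h) =
      aeval x (derivative (minpoly (𝓞 K) x)) * aeval x q := by
    rw [hq, derivative_mul, map_add, map_mul, map_mul, minpoly.aeval, zero_mul, add_zero]
  rw [hder] at h1
  exact Ideal.eq_top_of_isUnit_mem _ hmem (isUnit_of_mul_isUnit_left h1)

/-- **Unramifiedness of the Kummer extension.** If `u ≡ 1 mod (ζ - 1)^p` is a unit of `𝓞 K` and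
`L = K(w)` with `w ^ p = u`, then the different of `𝓞 L / 𝓞 K` is trivial. -/
theorem differentIdeal_eq_top_of_root (p : ℕ) [hp : Fact p.Prime] {ζ : K}
    (hζ : IsPrimitiveRoot ζ p) (u : (𝓞 K)ˣ) (hu : (hζ.toInteger - 1) ^ p ∣ (u : 𝓞 K) - 1)
    (w : L) (hw : w ^ p = algebraMap K L (u : K)) (hL : Algebra.adjoin K {w} = ⊤) :
    differentIdeal (𝓞 K) (𝓞 L) = ⊤ := by
  have hp1 : 1 < p := hp.out.one_lt
  set l : 𝓞 K := hζ.toInteger - 1 with hl
  have hl0 : l ≠ 0 := by
    intro h
    have h1 : hζ.toInteger = 1 := sub_eq_zero.mp h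
    have h2 := hζ.toInteger_isPrimitiveRoot
    rw [h1] at h2
    exact hp1.ne' (h2.unique IsPrimitiveRoot.one)
  obtain ⟨ν, hν⟩ := IsCyclotomicExtension.Rat.associated_zeta_sub_one_pow_prime p hζ
  rw [← hl] at hν
  obtain ⟨g, hg⟩ := C_pow_dvd_shift p l (u : 𝓞 K) ⟨ν, hν.symm⟩ hu
  -- `g` is monic
  have hlin : (C l * X + 1 : (𝓞 K)[X]) = C l * X + C 1 := by simp
  have hnd : ((C l * X + 1 : (𝓞 K)[X]) ^ p).natDegree = p := by
    rw [natDegree_pow, hlin, natDegree_linear hl0, mul_one]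
  have hlc : ((C l * X + 1 : (𝓞 K)[X]) ^ p).leadingCoeff = l ^ p := by
    rw [leadingCoeff_pow, hlin, leadingCoeff_linear hl0]
  have hdeg : (C (u : 𝓞 K) : (𝓞 K)[X]).degree < ((C l * X + 1 : (𝓞 K)[X]) ^ p).degree := by
    refine lt_of_le_of_lt degree_C_le ?_
    rw [degree_eq_natDegree (fun h => by rw [h] at hnd; simp at hnd; omega), hnd]
    exact_mod_cast hp.out.pos
  have hmonic : g.Monic := by
    have h1 : ((C l * X + 1 : (𝓞 K)[X]) ^ p - C (u : 𝓞 K)).leadingCoeff = l ^ p := by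
      rw [leadingCoeff_sub_of_degree_lt hdeg, hlc]
    rw [hg, leadingCoeff_mul, leadingCoeff_C] at h1
    exact mul_left_cancel₀ (pow_ne_zero p hl0) (h1.trans (mul_one _).symm)
  -- the element `θ = (w - 1) / l`
  set lL : L := algebraMap (𝓞 K) L l with hlL
  have hlL0 : lL ≠ 0 := by
    rw [hlL, Ne, FaithfulSMul.algebraMap_eq_zero_iff]
    exact hl0
  set θ : L := (w - 1) / lL with hθ
  have hθw : lL * θ + 1 = w := by
    rw [hθ]; field_simp; ring
  have hgθ : aeval θ g = 0 := by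
    have h1 := congrArg (aeval θ) hg
    simp only [map_sub, map_pow, map_add, map_mul, aeval_C, aeval_X, map_one] at h1
    rw [← hlL, hθw, hw, ← IsScalarTower.algebraMap_apply] at h1
    have h2 : algebraMap (𝓞 K) L (u : 𝓞 K) = algebraMap K L (u : K) := by
      rw [IsScalarTower.algebraMap_apply (𝓞 K) K L]
    rw [h2, sub_self] at h1
    exact (mul_eq_zero.mp h1.symm).resolve_left (pow_ne_zero p hlL0)
  have hint : IsIntegral (𝓞 K) θ := ⟨g, hmonic, by rwa [← aeval_def]⟩
  obtain ⟨θ', hθ'⟩ := (IsIntegralClosure.isIntegral_iff (A := 𝓞 L)).mp hint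
  -- apply the criterion
  refine differentIdeal_eq_top_of_isUnit_aeval_derivative θ' ?_ g ?_ ?_
  · rw [hθ']
    refine top_le_iff.mp (hL ▸ Algebra.adjoin_le ?_)
    rintro x rfl
    rw [← hθw]
    refine add_mem (mul_mem ?_ (Algebra.subset_adjoin rfl)) (one_mem _)
    rw [hlL, IsScalarTower.algebraMap_apply (𝓞 K) K L]
    exact Subalgebra.algebraMap_mem _ _
  · apply FaithfulSMul.algebraMap_injective (𝓞 L) L
    rw [map_zero, ← aeval_algebraMap_apply, hθ', hgθ]
  · -- the derivative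
    set w' : 𝓞 L := algebraMap (𝓞 K) (𝓞 L) l * θ' + 1 with hw'
    have hw'L : algebraMap (𝓞 L) L w' = w := by
      rw [hw', map_add, map_mul, map_one, hθ', ← IsScalarTower.algebraMap_apply, ← hlL, hθw]
    have hw'u : IsUnit w' := by
      have : w' ^ p = algebraMap (𝓞 K) (𝓞 L) (u : 𝓞 K) := by
        apply FaithfulSMul.algebraMap_injective (𝓞 L) L
        rw [map_pow, hw'L, hw, ← IsScalarTower.algebraMap_apply,
          IsScalarTower.algebraMap_apply (𝓞 K) K L]
        rfl
      have h2 : IsUnit (w' ^ p) := by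
        rw [this]; exact u.isUnit.map _
      exact (isUnit_pow_iff hp.out.ne_zero).mp h2
    have key : aeval θ' (derivative g) = algebraMap (𝓞 K) (𝓞 L) (ν : 𝓞 K) * w' ^ (p - 1) := by
      have h1 := congrArg (fun q => aeval θ' (derivative q)) hg
      simp only [derivative_sub, derivative_pow, derivative_mul, derivative_C,
        derivative_X, derivative_one, zero_mul, mul_one, zero_add, add_zero, sub_zero,
        map_mul, map_pow, map_add, aeval_C, aeval_X, map_one, map_natCast] at h1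
      rw [← hw'] at h1
      have hl' : algebraMap (𝓞 K) (𝓞 L) l ≠ 0 := by
        rw [Ne, FaithfulSMul.algebraMap_eq_zero_iff]; exact hl0
      have hpν : (p : 𝓞 L) = algebraMap (𝓞 K) (𝓞 L) l ^ (p - 1) * algebraMap (𝓞 K) (𝓞 L) ν := by
        rw [← map_pow, ← map_mul, hν, map_natCast]
      have hpp : algebraMap (𝓞 K) (𝓞 L) l ^ p =
          algebraMap (𝓞 K) (𝓞 L) l ^ (p - 1) * algebraMap (𝓞 K) (𝓞 L) l := by
        rw [← pow_succ]; congr 1; omega
      rw [hpν, hpp] at h1
      simp only [map_zero, mul_zero, zero_mul, zero_add] at h1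
      have h3 : algebraMap (𝓞 K) (𝓞 L) l ^ (p - 1) * algebraMap (𝓞 K) (𝓞 L) l ≠ 0 :=
        mul_ne_zero (pow_ne_zero _ hl') hl'
      apply mul_left_cancel₀ h3
      rw [← h1]; ring
    rw [key]
    exact (ν.isUnit.map _).mul (hw'u.pow _)

end different

end Fermat.Agent.Lib.Kummer
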