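import Mathlib

/-!
# Hilbert 92 by counting (pure group theory), used for Kummer's lemma
-/

open Polynomial Finset

namespace Fermat.Agent.Lib.Kummer

/-- `(X - 1) ^ (p - 1) = ∑_{i<p} X ^ i + p * b` in `ℤ[X]`. -/
lemma h92_poly_identity (p : ℕ) [hp : Fact p.Prime] :
    ∃ b : ℤ[X], (X - 1 : ℤ[X]) ^ (p - 1) = (∑ i ∈ range p, (X : ℤ[X]) ^ i) + C (p : ℤ) * b := by
  have key : (C (p : ℤ)) ∣ ((X - 1 : ℤ[X]) ^ (p - 1) - ∑ i ∈ range p, (X : ℤ[X]) ^ i) := by
    rw [Polynomial.C_dvd_iff_dvd_coeff]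
    intro i
    rw [← ZMod.intCast_zmod_eq_zero_iff_dvd, ← eq_intCast (Int.castRingHom (ZMod p)),
      ← Polynomial.coeff_map (Int.castRingHom (ZMod p))]
    have h0 : Polynomial.map (Int.castRingHom (ZMod p))
        ((X - 1 : ℤ[X]) ^ (p - 1) - ∑ i ∈ range p, (X : ℤ[X]) ^ i) = 0 := by
      simp only [Polynomial.map_sub, Polynomial.map_pow, Polynomial.map_X, Polynomial.map_one,
        Polynomial.map_sum]
      have hX : (X - 1 : (ZMod p)[X]) ≠ 0 := by
        have := X_sub_C_ne_zero (1 : ZMod p)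
        simpa using this
      apply mul_right_cancel₀ hX
      rw [zero_mul, sub_mul, ← pow_succ, Nat.sub_add_cancel hp.out.pos, geom_sum_mul,
        sub_pow_char, one_pow, sub_self]
    rw [h0, coeff_zero]
  obtain ⟨b, hb⟩ := key
  exact ⟨b, by linear_combination hb⟩
/-- Iterates of an endomorphism, as monoid homomorphisms. -/
def h92Iter {V : Type*} [Monoid V] (f : V →* V) : ℕ → (V →* V)
  | 0 => MonoidHom.id V
  | k + 1 => f.comp (h92Iter f k)

@[simp] lemma h92Iter_zero {V : Type*} [Monoid V] (f : V →* V) (x : V) : h92Iter f 0 x = x := rfl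

@[simp] lemma h92Iter_succ {V : Type*} [Monoid V] (f : V →* V) (k : ℕ) (x : V) :
    h92Iter f (k + 1) x = f (h92Iter f k x) := rfl

/-- For an endomorphism `f` of a finite group, `|V| ≤ |ker f| ^ k * |im f ^ k|`. -/
lemma h92_card_le_ker_pow_mul_range {V : Type*} [Group V] [Finite V] (f : V →* V) (k : ℕ) :
    Nat.card V ≤ Nat.card (MonoidHom.ker f) ^ k * Nat.card (MonoidHom.range (h92Iter f k)) := by
  induction k with
  | zero =>
    have : MonoidHom.range (h92Iter f 0) = ⊤ :=
      MonoidHom.range_eq_top.mpr (fun x => ⟨x, rfl⟩)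
    rw [this, pow_zero, one_mul, Subgroup.card_top]
  | succ k ih =>
    set R : Subgroup V := MonoidHom.range (h92Iter f k) with hR
    let g : R →* V := f.comp R.subtype
    have h1 : Nat.card R = Nat.card (MonoidHom.ker g) * Nat.card (MonoidHom.range g) := by
      rw [← Subgroup.index_ker g, Subgroup.card_mul_index]
    have h2 : MonoidHom.range g = MonoidHom.range (h92Iter f (k + 1)) := by
      ext y
      constructor
      · rintro ⟨⟨x, ⟨z, rfl⟩⟩, rfl⟩
        exact ⟨z, rfl⟩
      · rintro ⟨z, rfl⟩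
        exact ⟨⟨h92Iter f k z, ⟨z, rfl⟩⟩, rfl⟩
    have h3 : Nat.card (MonoidHom.ker g) ≤ Nat.card (MonoidHom.ker f) := by
      refine Nat.card_le_card_of_injective
        (fun x => (⟨x.1.1, by
          have := x.2
          rw [MonoidHom.mem_ker] at this ⊢
          exact this⟩ : MonoidHom.ker f)) ?_
      intro x y hxy
      have := congrArg Subtype.val hxy
      exact Subtype.ext (Subtype.ext this)
    calc Nat.card V ≤ Nat.card (MonoidHom.ker f) ^ k * Nat.card R := ih
      _ = Nat.card (MonoidHom.ker f) ^ k *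
            (Nat.card (MonoidHom.ker g) * Nat.card (MonoidHom.range g)) := by rw [h1]
      _ ≤ Nat.card (MonoidHom.ker f) ^ k *
            (Nat.card (MonoidHom.ker f) * Nat.card (MonoidHom.range g)) := by
          gcongr
      _ = Nat.card (MonoidHom.ker f) ^ (k + 1) *
            Nat.card (MonoidHom.range (h92Iter f (k + 1))) := by
          rw [h2, pow_succ, mul_assoc]

/-- Fibre counting: if a map `φ : K → M` has all fibres inside cosets of a subgroup `I`, then
`|K| ≤ |M| * |I|`. -/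
lemma h92_card_le_of_fibres {V M : Type*} [Group V] [Finite V] [Finite M] (K I : Subgroup V)
    (φ : K → M) (hφ : ∀ v₁ v₂ : K, φ v₁ = φ v₂ → (v₁ : V) / (v₂ : V) ∈ I) :
    Nat.card K ≤ Nat.card M * Nat.card I := by
  classical
  let r : M → K := fun c => if h : ∃ v, φ v = c then h.choose else 1
  have hr : ∀ v : K, φ (r (φ v)) = φ v := by
    intro v
    have h : ∃ w, φ w = φ v := ⟨v, rfl⟩
    simp only [r, dif_pos h]
    exact h.choose_spec
  rw [← Nat.card_prod]
  refine Nat.card_le_card_of_injective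
    (fun v => (φ v, (⟨(v : V) / (r (φ v) : V), hφ _ _ (hr v).symm⟩ : I))) ?_
  intro v₁ v₂ h
  simp only [Prod.mk.injEq, Subtype.mk.injEq] at h
  obtain ⟨h1, h2⟩ := h
  rw [h1] at h2
  exact Subtype.ext (div_left_injective h2)

/-- A nontrivial subgroup of a finite group of exponent `p` has at least `p` elements. -/
lemma h92_le_card_of_exponent {G : Type*} [Group G] [Finite G] (p : ℕ) [hp : Fact p.Prime]
    (hexp : ∀ g : G, g ^ p = 1) (H : Subgroup G) (g : G) (hg : g ∈ H) (hg1 : g ≠ 1) :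
    p ≤ Nat.card H := by
  have ho : orderOf (⟨g, hg⟩ : H) = p := by
    apply orderOf_eq_prime
    · exact Subtype.ext (by simpa using hexp g)
    · intro h
      exact hg1 (by simpa using congrArg Subtype.val h)
  have := orderOf_dvd_natCard (⟨g, hg⟩ : H)
  rw [ho] at this
  exact Nat.le_of_dvd Nat.card_pos this


section setup

variable {E : Type} [CommGroup E] (p : ℕ) (σ : E ≃* E)

/-- `T x = σ x / x`. -/
def h92T : E →* E where
  toFun x := σ x / x
  map_one' := by simp
  map_mul' x y := by simp [mul_div_mul_comm]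

@[simp] lemma h92T_apply (x : E) : h92T σ x = σ x / x := rfl

/-- The norm `N x = ∏_{i<p} σ^i x`. -/
def h92N : E →* E where
  toFun x := ∏ i ∈ Finset.range p, (σ ^ i) x
  map_one' := by simp
  map_mul' x y := by simp [Finset.prod_mul_distrib]

@[simp] lemma h92N_apply (x : E) : h92N p σ x = ∏ i ∈ Finset.range p, (σ ^ i) x := rfl

lemma h92_pow_succ_apply (i : ℕ) (x : E) : (σ ^ (i + 1)) x = σ ((σ ^ i) x) := by
  rw [pow_succ', MulAut.mul_apply]

lemma h92_pow_succ_apply' (i : ℕ) (x : E) : (σ ^ (i + 1)) x = (σ ^ i) (σ x) := by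
  rw [pow_succ, MulAut.mul_apply]

lemma h92_pow_apply_of_fixed {t : E} (ht : σ t = t) (i : ℕ) : (σ ^ i) t = t := by
  induction i with
  | zero => simp
  | succ i ih => rw [h92_pow_succ_apply, ih, ht]

lemma h92N_of_fixed {t : E} (ht : σ t = t) : h92N p σ t = t ^ p := by
  simp [h92N_apply, h92_pow_apply_of_fixed σ ht]

lemma h92N_sigma (x : E) : h92N p σ (σ x) = σ (h92N p σ x) := by
  simp only [h92N_apply, map_prod]
  refine Finset.prod_congr rfl (fun i _ => ?_)
  rw [← h92_pow_succ_apply, ← h92_pow_succ_apply']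

lemma h92_sigma_N (hσ : ∀ x, (σ ^ p) x = x) (x : E) : σ (h92N p σ x) = h92N p σ x := by
  simp only [h92N_apply, map_prod]
  have h1 : ∏ i ∈ Finset.range p, σ ((σ ^ i) x) = ∏ i ∈ Finset.range p, (σ ^ (i + 1)) x :=
    Finset.prod_congr rfl (fun i _ => (h92_pow_succ_apply σ i x).symm)
  rw [h1]
  have h2 := Finset.prod_range_succ (fun i => (σ ^ i) x) p
  have h3 := Finset.prod_range_succ' (fun i => (σ ^ i) x) p
  rw [h2] at h3
  simp only [hσ, pow_zero, MulAut.one_apply] at h3
  exact (mul_right_cancel h3).symm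

lemma h92N_T (hσ : ∀ x, (σ ^ p) x = x) (x : E) : h92N p σ (h92T σ x) = 1 := by
  rw [h92T_apply, _root_.map_div, h92N_sigma, h92_sigma_N p σ hσ, div_self']

/-- `T ^ (p - 1) x = N x * y ^ p` for some `y`. -/
lemma h92_iter_eq [hp : Fact p.Prime] (x : E) :
    ∃ y : E, h92Iter (h92T σ) (p - 1) x = h92N p σ x * y ^ p := by
  obtain ⟨b, hb⟩ := h92_poly_identity p
  let σA : Module.End ℤ (Additive E) := (MulEquiv.toAdditive σ).toAddMonoidHom.toIntLinearMap
  have hσA : ∀ z : E, σA (Additive.ofMul z) = Additive.ofMul (σ z) := fun z => rfl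
  have hpow : ∀ (i : ℕ) (z : E), (σA ^ i) (Additive.ofMul z) = Additive.ofMul ((σ ^ i) z) := by
    intro i
    induction i with
    | zero => intro z; simp
    | succ i ih =>
      intro z
      rw [pow_succ', Module.End.mul_apply, ih, hσA, h92_pow_succ_apply]
  have hT : ∀ (k : ℕ) (z : E), ((σA - 1) ^ k) (Additive.ofMul z)
      = Additive.ofMul (h92Iter (h92T σ) k z) := by
    intro k
    induction k with
    | zero => intro z; simp
    | succ k ih =>
      intro z
      rw [pow_succ', Module.End.mul_apply, ih, h92Iter_succ, LinearMap.sub_apply, hσA,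
        Module.End.one_apply, h92T_apply, ofMul_div]
  have h := congrArg (fun f => (Polynomial.aeval σA f) (Additive.ofMul x)) hb
  simp only [map_pow, map_sub, Polynomial.aeval_X, map_one, map_add, map_sum, map_mul,
    Polynomial.aeval_C, LinearMap.add_apply, LinearMap.sum_apply, Module.End.mul_apply, hT,
    hpow] at h
  refine ⟨Additive.toMul ((Polynomial.aeval σA b) (Additive.ofMul x)), ?_⟩
  apply Additive.ofMul.injective
  rw [h, ofMul_mul, ofMul_pow, ofMul_toMul, h92N_apply, ofMul_prod]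
  congr 1
  simp

end setup


set_option linter.unusedVariables false in
/-- **"Hilbert 92" by counting** (pure group theory): if `σ` has order dividing `p` on the
commutative group `E`, with fixed subgroup `F`, and the indices of `p`-th powers satisfy
`[E : E^p] ≥ p^(ps)`, `[F : F^p] ≤ p^s`, and some `u ∈ F` is a `p`-th power in `E` but not in `F`,
then some element of norm one is not of the form `σ w / w`. -/
theorem exists_norm_one_not_coboundary {E : Type} [CommGroup E] (p s : ℕ) [Fact p.Prime]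
    (hp2 : p ≠ 2)
    (σ : E ≃* E) (hσ : ∀ x, (σ ^ p) x = x)
    (F : Subgroup E) (hF : ∀ x, σ x = x ↔ x ∈ F)
    (hfin : (powMonoidHom p : E →* E).range.index ≠ 0)
    (hE : p ^ (p * s) ≤ (powMonoidHom p : E →* E).range.index)
    (hFs : ((powMonoidHom p : F →* F).range.index) ≤ p ^ s)
    (hFs0 : ((powMonoidHom p : F →* F).range.index) ≠ 0)
    (u : E) (huF : u ∈ F) (hu : ∃ w : E, w ^ p = u) (hu' : ∀ v ∈ F, v ^ p ≠ u)
    (htors : ∀ x : E, x ^ p = 1 → x ∈ F)
    (hcard : Nat.card {x : E // x ^ p = 1} ≤ p) :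
    ∃ ε : E, (∏ i ∈ Finset.range p, (σ ^ i) ε) = 1 ∧ ∀ w : E, σ w / w ≠ ε := by
  by_contra hcon
  push Not at hcon
  have hp : p.Prime := Fact.out
  have hcob : ∀ ε : E, h92N p σ ε = 1 → ∃ w : E, h92T σ w = ε := hcon
  set P : Subgroup E := (powMonoidHom p : E →* E).range with hP
  set PF : Subgroup F := (powMonoidHom p : F →* F).range with hPF
  have hmemP : ∀ x : E, x ∈ P ↔ ∃ y : E, y ^ p = x := fun x => Iff.rfl
  have hmemPF : ∀ x : F, x ∈ PF ↔ ∃ y : F, y ^ p = x := fun x => Iff.rfl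
  have : Finite (E ⧸ P) := Nat.finite_of_card_ne_zero hfin
  have : Finite (F ⧸ PF) := Nat.finite_of_card_ne_zero hFs0
  have hTfix : ∀ z : E, h92T σ z = 1 ↔ z ∈ F := by
    intro z
    rw [h92T_apply, div_eq_one, hF]
  -- the quotient maps
  have hTP : P ≤ P.comap (h92T σ) := by
    rintro x ⟨y, rfl⟩
    exact ⟨h92T σ y, by simp [map_pow]⟩
  let TV : (E ⧸ P) →* (E ⧸ P) := QuotientGroup.map P P (h92T σ) hTP
  have hTVmk : ∀ x : E, TV (QuotientGroup.mk x) = QuotientGroup.mk (h92T σ x) :=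
    fun x => QuotientGroup.map_mk P P (h92T σ) hTP x
  let f : F →* (E ⧸ P) := (QuotientGroup.mk' P).comp F.subtype
  have hf : ∀ x : F, f x = QuotientGroup.mk (x : E) := fun x => rfl
  set I : Subgroup (E ⧸ P) := f.range with hI
  -- (A)
  have hA := h92_card_le_ker_pow_mul_range TV (p - 1)
  -- (B)
  have hB : MonoidHom.range (h92Iter TV (p - 1)) ≤ I := by
    rintro v ⟨w, rfl⟩
    obtain ⟨x, rfl⟩ := QuotientGroup.mk_surjective w
    have hiter : ∀ k : ℕ, h92Iter TV k (QuotientGroup.mk x)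
        = QuotientGroup.mk (h92Iter (h92T σ) k x) := by
      intro k
      induction k with
      | zero => rfl
      | succ k ih => rw [h92Iter_succ, ih, hTVmk, h92Iter_succ]
    rw [hiter]
    obtain ⟨y, hy⟩ := h92_iter_eq p σ x
    rw [hy]
    refine ⟨⟨h92N p σ x, (hF _).mp (h92_sigma_N p σ hσ x)⟩, ?_⟩
    rw [hf]
    symm
    rw [QuotientGroup.eq]
    have : (h92N p σ x * y ^ p)⁻¹ * h92N p σ x = (y⁻¹) ^ p := by
      rw [inv_pow]; group
    rw [this]
    exact ⟨y⁻¹, rfl⟩
  -- (C)
  have hC : p * Nat.card I ≤ p ^ s := by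
    have hle : PF ≤ f.ker := by
      rintro x ⟨y, rfl⟩
      rw [MonoidHom.mem_ker, hf]
      rw [QuotientGroup.eq_one_iff]
      exact ⟨(y : E), by simp⟩
    let g : (F ⧸ PF) →* (E ⧸ P) := QuotientGroup.lift PF f hle
    have hg : ∀ x : F, g (QuotientGroup.mk x) = f x := fun x => QuotientGroup.lift_mk PF hle x
    have hrange : g.range = I := by
      ext v
      constructor
      · rintro ⟨w, rfl⟩
        obtain ⟨x, rfl⟩ := QuotientGroup.mk_surjective w
        exact ⟨x, (hg x).symm⟩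
      · rintro ⟨x, rfl⟩
        exact ⟨QuotientGroup.mk x, hg x⟩
    have hcardeq : Nat.card (F ⧸ PF) = Nat.card g.ker * Nat.card I := by
      rw [← hrange, ← Subgroup.index_ker g, Subgroup.card_mul_index]
    have hexp : ∀ w : F ⧸ PF, w ^ p = 1 := by
      intro w
      obtain ⟨x, rfl⟩ := QuotientGroup.mk_surjective w
      rw [← QuotientGroup.mk_pow, QuotientGroup.eq_one_iff]
      exact ⟨x, rfl⟩
    have hker : p ≤ Nat.card g.ker := by
      apply h92_le_card_of_exponent p hexp g.ker (QuotientGroup.mk ⟨u, huF⟩)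
      · rw [MonoidHom.mem_ker, hg, hf, QuotientGroup.eq_one_iff]
        exact hu
      · intro h
        rw [QuotientGroup.eq_one_iff] at h
        obtain ⟨v, hv⟩ := h
        apply hu' (v : E) v.2
        have := congrArg Subtype.val hv
        simpa using this
    calc p * Nat.card I ≤ Nat.card g.ker * Nat.card I := Nat.mul_le_mul_right _ hker
      _ = Nat.card (F ⧸ PF) := hcardeq.symm
      _ ≤ p ^ s := hFs
  -- finiteness of the `p`-torsion
  have : Finite {x : E // x ^ p = 1} := by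
    have hw : ∀ t : {x : E // x ^ p = 1}, ∃ w : E, h92T σ w = t.1 := by
      intro t
      apply hcob
      rw [h92N_of_fixed p σ ((hF _).mpr (htors _ t.2)), t.2]
    choose w hw using hw
    have hwF : ∀ t, (w t) ^ p ∈ F := by
      intro t
      rw [← hTfix, map_pow, hw, t.2]
    refine Finite.of_injective
      (fun t => (QuotientGroup.mk ⟨(w t) ^ p, hwF t⟩ : F ⧸ PF)) ?_
    intro t₁ t₂ h
    simp only at h
    rw [QuotientGroup.eq] at h
    obtain ⟨y, hy⟩ := h
    have hy' : (y : E) ^ p = ((w t₁) ^ p)⁻¹ * (w t₂) ^ p := by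
      have := congrArg Subtype.val hy
      simpa using this
    have h1 : ((w t₁) * (y : E) * (w t₂)⁻¹) ^ p = 1 := by
      rw [mul_pow, mul_pow, hy', inv_pow]; group
    have h2 : (w t₁) * (y : E) * (w t₂)⁻¹ ∈ F := htors _ h1
    have h3 : h92T σ ((w t₁) * (y : E) * (w t₂)⁻¹) = 1 := (hTfix _).mpr h2
    rw [map_mul, map_mul, map_inv, hw, hw, (hTfix _).mpr y.2, mul_one, mul_inv_eq_one] at h3
    exact Subtype.ext h3
  -- (D)
  have hD : Nat.card (MonoidHom.ker TV) ≤ p * Nat.card I := by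
    have hex : ∀ v : MonoidHom.ker TV, ∃ x y : E,
        (QuotientGroup.mk x : E ⧸ P) = (v : E ⧸ P) ∧ y ^ p = h92T σ x := by
      intro v
      obtain ⟨x, hx⟩ := QuotientGroup.mk_surjective (v : E ⧸ P)
      have h1 : TV (QuotientGroup.mk x) = 1 := by
        rw [hx]; exact v.2
      rw [hTVmk, QuotientGroup.eq_one_iff] at h1
      obtain ⟨y, hy⟩ := h1
      exact ⟨x, y, hx, hy⟩
    choose x y hx hy using hex
    have hNy : ∀ v, (h92N p σ (y v)) ^ p = 1 := by
      intro v
      rw [← map_pow, hy, h92N_T p σ hσ]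
    let φ : MonoidHom.ker TV → {x : E // x ^ p = 1} := fun v => ⟨h92N p σ (y v), hNy v⟩
    have hφ : ∀ v₁ v₂ : MonoidHom.ker TV, φ v₁ = φ v₂ → (v₁ : E ⧸ P) / (v₂ : E ⧸ P) ∈ I := by
      intro v₁ v₂ h
      have h1 : h92N p σ (y v₁) = h92N p σ (y v₂) := congrArg Subtype.val h
      have h2 : h92N p σ (y v₁ / y v₂) = 1 := by
        rw [_root_.map_div, h1, div_self']
      obtain ⟨m, hm⟩ := hcob _ h2
      have h3 : h92T σ (x v₁ / x v₂ / m ^ p) = 1 := by
        rw [_root_.map_div, _root_.map_div, map_pow, hm, ← hy, ← hy, div_pow, div_self']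
      have h4 : x v₁ / x v₂ / m ^ p ∈ F := (hTfix _).mp h3
      refine ⟨⟨_, h4⟩, ?_⟩
      rw [hf, ← hx v₁, ← hx v₂, ← QuotientGroup.mk_div, QuotientGroup.eq]
      refine ⟨m, ?_⟩
      simp only [powMonoidHom_apply]
      rw [inv_div, div_mul_cancel]
    calc Nat.card (MonoidHom.ker TV)
        ≤ Nat.card {x : E // x ^ p = 1} * Nat.card I := h92_card_le_of_fibres _ I φ hφ
      _ ≤ p * Nat.card I := Nat.mul_le_mul_right _ hcard
  -- (E) arithmetic
  have hBc : Nat.card (MonoidHom.range (h92Iter TV (p - 1))) ≤ Nat.card I :=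
    Subgroup.card_le_of_le hB
  have hV : p ^ (p * s) ≤ Nat.card (E ⧸ P) := hE
  have hkey : p * Nat.card (E ⧸ P) ≤ p ^ (p * s) := by
    calc p * Nat.card (E ⧸ P)
        ≤ p * (Nat.card (MonoidHom.ker TV) ^ (p - 1) *
            Nat.card (MonoidHom.range (h92Iter TV (p - 1)))) := Nat.mul_le_mul_left _ hA
      _ ≤ p * ((p ^ s) ^ (p - 1) * Nat.card I) := by
          gcongr
          exact hD.trans hC
      _ = (p ^ s) ^ (p - 1) * (p * Nat.card I) := by ring
      _ ≤ (p ^ s) ^ (p - 1) * p ^ s := Nat.mul_le_mul_left _ hC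
      _ = p ^ (p * s) := by
          rw [← pow_succ, Nat.sub_add_cancel hp.pos, ← pow_mul, mul_comm]
  have hpos : 0 < Nat.card (E ⧸ P) := Nat.card_pos
  have h2 : 2 ≤ p := hp.two_le
  nlinarith

end Fermat.Agent.Lib.Kummer
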