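import Mathlib

/-!
# Index of the `p`-th powers in the unit group of a number field containing `ζ_p`

`index_pow_units`: if `F` is a number field containing a primitive `p`-th root of unity (`p` an odd
prime), then `[𝓞Fˣ : (𝓞Fˣ)^p] = p ^ ([F : ℚ] / 2)`  (Dirichlet's unit theorem).
-/

set_option autoImplicit false

open NumberField NumberField.Units NumberField.InfinitePlace

namespace Fermat.Agent.Lib.Kummer

/-- Abstract count: if `T ≤ G` is "saturated" for `p`-th powers, then
`[G : G^p] = [T : T^p] * [G/T : (G/T)^p]`. -/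
theorem index_pow_of_saturated {G : Type*} [CommGroup G] (T : Subgroup G) (p : ℕ)
    (hT : ∀ x : G, x ^ p ∈ T → x ∈ T) :
    (powMonoidHom p : G →* G).range.index =
      (powMonoidHom p : T →* T).range.index * (powMonoidHom p : G ⧸ T →* G ⧸ T).range.index := by
  set H : Subgroup G := (powMonoidHom p : G →* G).range with hH
  -- the image of `H` in the quotient
  have hmap : H.map (QuotientGroup.mk' T) = (powMonoidHom p : G ⧸ T →* G ⧸ T).range := by
    ext y
    constructor
    · rintro ⟨x, ⟨z, rfl⟩, rfl⟩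
      exact ⟨QuotientGroup.mk' T z, by simp⟩
    · rintro ⟨z, rfl⟩
      obtain ⟨x, rfl⟩ := QuotientGroup.mk'_surjective T z
      exact ⟨x ^ p, ⟨x, rfl⟩, by simp⟩
  have h1 : (H.map (QuotientGroup.mk' T)).index = (H ⊔ T).index := by
    rw [Subgroup.index_map, QuotientGroup.ker_mk',
      MonoidHom.range_eq_top.mpr (QuotientGroup.mk'_surjective T), Subgroup.index_top, mul_one]
  have h2 : H.relIndex (H ⊔ T) * (H ⊔ T).index = H.index :=
    Subgroup.relIndex_mul_index le_sup_left
  have h3 : H.relIndex (H ⊔ T) = H.relIndex T := Subgroup.relIndex_sup_left T H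
  have h4 : H.subgroupOf T = (powMonoidHom p : T →* T).range := by
    ext y
    rw [Subgroup.mem_subgroupOf]
    constructor
    · rintro ⟨x, hx⟩
      have hxT : x ∈ T := hT x (by rw [← powMonoidHom_apply, hx]; exact y.2)
      exact ⟨⟨x, hxT⟩, Subtype.ext (by simpa using hx)⟩
    · rintro ⟨x, rfl⟩
      exact ⟨(x : G), by simp⟩
  rw [← h2, h3, Subgroup.relIndex, h4, ← h1, hmap]

/-- Transfer of `AddSubgroup.index_range_nsmul` to a multiplicative commutative group. -/
theorem index_pow_of_free {Q : Type*} [CommGroup Q] [Module.Free ℤ (Additive Q)]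
    [Module.Finite ℤ (Additive Q)] (p : ℕ) :
    (powMonoidHom p : Q →* Q).range.index = p ^ Module.finrank ℤ (Additive Q) := by
  rw [← AddSubgroup.index_range_nsmul (Additive Q) p, ← Subgroup.index_toAddSubgroup]
  congr 1

theorem index_pow_units (p : ℕ) [Fact p.Prime] (hp2 : p ≠ 2) (F : Type) [Field F] [NumberField F]
    (ζ : F) (hζ : IsPrimitiveRoot ζ p) :
    (powMonoidHom p : (𝓞 F)ˣ →* (𝓞 F)ˣ).range.index = p ^ (Module.finrank ℚ F / 2) := by
  have hpp : p.Prime := Fact.out
  have hp3 : 2 < p := lt_of_le_of_ne hpp.two_le (Ne.symm hp2)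
  -- saturation of the torsion subgroup
  have hsat : ∀ x : (𝓞 F)ˣ, x ^ p ∈ torsion F → x ∈ torsion F := by
    intro x hx
    rw [torsion, CommGroup.mem_torsion] at hx ⊢
    exact hx.of_pow hpp.ne_zero
  rw [index_pow_of_saturated (torsion F) p hsat,
    index_pow_of_free (Q := (𝓞 F)ˣ ⧸ torsion F) p, finrank_modTorsion,
    IsCyclic.index_powMonoidHom_range]
  -- `p` divides the order of the torsion subgroup
  have hdvd : p ∣ Nat.card (torsion F) := by
    have : NeZero p := ⟨hpp.ne_zero⟩
    have hz : IsPrimitiveRoot hζ.toInteger p := hζ.toInteger_isPrimitiveRoot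
    have hu : IsPrimitiveRoot (hz.isUnit hpp.ne_zero).unit p := hz.isUnit_unit hpp.ne_zero
    have huT : (hz.isUnit hpp.ne_zero).unit ∈ torsion F := by
      rw [torsion, CommGroup.mem_torsion, isOfFinOrder_iff_pow_eq_one]
      exact ⟨p, hpp.pos, hu.pow_eq_one⟩
    have hord : orderOf (⟨(hz.isUnit hpp.ne_zero).unit, huT⟩ : torsion F) = p := by
      rw [Subgroup.orderOf_mk]
      exact hu.eq_orderOf.symm
    rw [← hord]
    exact orderOf_dvd_natCard _
  rw [Nat.gcd_eq_right hdvd]
  -- rank computation
  have hreal : nrRealPlaces F = 0 := hζ.nrRealPlaces_eq_zero_of_two_lt hp3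
  have hdeg := card_add_two_mul_card_eq_rank F
  have hcard := card_eq_nrRealPlaces_add_nrComplexPlaces F
  rw [hreal, zero_add] at hdeg hcard
  have hpos : 0 < Module.finrank ℚ F := Module.finrank_pos
  have hrank : NumberField.Units.rank F = Fintype.card (InfinitePlace F) - 1 := rfl
  have hexp : Module.finrank ℚ F / 2 = NumberField.Units.rank F + 1 := by
    rw [hrank, hcard]
    omega
  rw [hexp, pow_succ, mul_comm]

end Fermat.Agent.Lib.Kummer
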