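import Mathlib

/-!
# Kummer's lemma, step D3: descending `n`-th powers along an everywhere unramified extension

If `L/K` has trivial different and `𝓞 K` is a PID, then an element of `𝓞 K` which is an `n`-th power
up to a unit in `𝓞 L` is an `n`-th power up to a unit in `𝓞 K`.
-/

open NumberField

namespace Fermat.Agent.Lib.Kummer

section

variable {K L : Type} [Field K] [Field L] [NumberField K] [NumberField L] [Algebra K L]

/-- If the different is trivial, then `π 𝓞L` is a radical ideal for every prime element `π` of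
`𝓞 K`. -/
theorem dvd_of_dvd_pow_of_different_eq_top (hd : differentIdeal (𝓞 K) (𝓞 L) = ⊤)
    {π : 𝓞 K} (hπ : Prime π) {β : 𝓞 L} {n : ℕ}
    (h : algebraMap (𝓞 K) (𝓞 L) π ∣ β ^ n) : algebraMap (𝓞 K) (𝓞 L) π ∣ β := by
  set p : Ideal (𝓞 K) := Ideal.span {π} with hp
  have hpprime : p.IsPrime := (Ideal.span_singleton_prime hπ.ne_zero).mpr hπ
  have hpbot : p ≠ ⊥ := by simp [hp, hπ.ne_zero]
  have : p.IsMaximal := hpprime.isMaximal hpbot
  set I : Ideal (𝓞 L) := p.map (algebraMap (𝓞 K) (𝓞 L)) with hI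
  have hIspan : I = Ideal.span {algebraMap (𝓞 K) (𝓞 L) π} := by
    rw [hI, hp, Ideal.map_span, Set.image_singleton]
  have hinj : Function.Injective (algebraMap (𝓞 K) (𝓞 L)) :=
    FaithfulSMul.algebraMap_injective (𝓞 K) (𝓞 L)
  have hI0 : I ≠ 0 := by
    rw [hIspan, Ideal.zero_eq_bot, Ne, Ideal.span_singleton_eq_bot]
    exact fun h0 => hπ.ne_zero (hinj (by rw [h0, map_zero]))
  have hsq : Squarefree I := by
    rw [squarefree_iff_irreducible_sq_not_dvd_of_ne_zero hI0]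
    intro P hP hPP
    have h1 : P ^ (2 - 1) ∣ differentIdeal (𝓞 K) (𝓞 L) :=
      pow_sub_one_dvd_differentIdeal (𝓞 K) P 2 hpbot (by rwa [pow_two])
    rw [hd] at h1
    simp only [Nat.add_one_sub_one, pow_one] at h1
    have h2 : P = ⊤ := by
      rw [Ideal.dvd_iff_le] at h1
      exact top_le_iff.mp h1
    exact hP.not_isUnit (Ideal.isUnit_iff.mpr h2)
  have hrad : IsRadical I := hsq.isRadical
  have h1 : I ∣ (Ideal.span {β}) ^ n := by
    rw [Ideal.span_singleton_pow, hIspan, Ideal.dvd_iff_le,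
      Ideal.span_singleton_le_span_singleton]
    exact h
  have h2 := hrad n _ h1
  rwa [hIspan, Ideal.dvd_iff_le, Ideal.span_singleton_le_span_singleton] at h2

omit [NumberField K] [NumberField L] in
/-- Divisibility in `𝓞 L` between elements of `𝓞 K` descends to `𝓞 K`. -/
theorem dvd_of_algebraMap_dvd {x y : 𝓞 K} (hy : y ≠ 0)
    (h : algebraMap (𝓞 K) (𝓞 L) y ∣ algebraMap (𝓞 K) (𝓞 L) x) : y ∣ x := by
  obtain ⟨c, hc⟩ := h
  have hyK : (algebraMap (𝓞 K) K y) ≠ 0 := by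
    simpa using hy
  set z : K := algebraMap (𝓞 K) K x / algebraMap (𝓞 K) K y with hz
  have hzL : algebraMap K L z = algebraMap (𝓞 L) L c := by
    have hyL : algebraMap K L (algebraMap (𝓞 K) K y) ≠ 0 := by
      simpa using hyK
    rw [hz, map_div₀, div_eq_iff hyL]
    have := congrArg (algebraMap (𝓞 L) L) hc
    rw [map_mul, ← IsScalarTower.algebraMap_apply, ← IsScalarTower.algebraMap_apply,
      IsScalarTower.algebraMap_apply (𝓞 K) K L, IsScalarTower.algebraMap_apply (𝓞 K) K L] at this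
    rw [this, mul_comm]
  have hzint : IsIntegral ℤ z := by
    have h1 : IsIntegral ℤ (algebraMap K L z) := by
      rw [hzL]
      exact RingOfIntegers.isIntegral_coe c
    exact (isIntegral_algebraMap_iff (algebraMap K L).injective).mp h1
  obtain ⟨w, hw⟩ : ∃ w : 𝓞 K, algebraMap (𝓞 K) K w = z := ⟨⟨z, hzint⟩, rfl⟩
  refine ⟨w, ?_⟩
  apply FaithfulSMul.algebraMap_injective (𝓞 K) K
  rw [map_mul, hw, hz, mul_div_cancel₀ _ hyK]


/-- **D3.** In an everywhere unramified extension `L/K` with `𝓞 K` a PID: if `a ∈ 𝓞 K` is an `n`-th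
power up to a unit in `𝓞 L`, then it is an `n`-th power up to a unit in `𝓞 K`. -/
theorem exists_pow_mul_unit_of_different_eq_top [IsPrincipalIdealRing (𝓞 K)]
    (hd : differentIdeal (𝓞 K) (𝓞 L) = ⊤) (n : ℕ) (hn : n ≠ 0)
    (β : 𝓞 L) (a : 𝓞 K) (ha : a ≠ 0) (ω : (𝓞 L)ˣ) (h : β ^ n = algebraMap (𝓞 K) (𝓞 L) a * ω) :
    ∃ (a₁ : 𝓞 K) (v : (𝓞 K)ˣ), a = v * a₁ ^ n := by
  have hinj : Function.Injective (algebraMap (𝓞 K) (𝓞 L)) :=
    FaithfulSMul.algebraMap_injective (𝓞 K) (𝓞 L)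
  revert β ω
  induction a using (wellFounded_dvdNotUnit (α := 𝓞 K)).induction with
  | _ a ih =>
    intro β ω h
    by_cases hu : IsUnit a
    · exact ⟨1, hu.unit, by simp⟩
    obtain ⟨π, hπirr, a', rfl⟩ := WfDvdMonoid.exists_irreducible_factor hu ha
    have hπ : Prime π := hπirr.prime
    have hπL : algebraMap (𝓞 K) (𝓞 L) π ∣ β ^ n :=
      ⟨algebraMap (𝓞 K) (𝓞 L) a' * ω, by rw [h, map_mul]; ring⟩
    obtain ⟨β', rfl⟩ := dvd_of_dvd_pow_of_different_eq_top hd hπ hπL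
    -- `π ^ n ∣ π * a'` in `𝓞 L`, hence in `𝓞 K`
    have hdvdL : algebraMap (𝓞 K) (𝓞 L) (π ^ n) ∣ algebraMap (𝓞 K) (𝓞 L) (π * a') := by
      refine ⟨β' ^ n * ((ω⁻¹ : (𝓞 L)ˣ) : 𝓞 L), ?_⟩
      have h1 : algebraMap (𝓞 K) (𝓞 L) (π * a') =
          (algebraMap (𝓞 K) (𝓞 L) π * β') ^ n * ((ω⁻¹ : (𝓞 L)ˣ) : 𝓞 L) := by
        rw [h, mul_assoc, Units.mul_inv, mul_one]
      rw [h1, map_pow]; ring
    obtain ⟨a'', ha''⟩ := dvd_of_algebraMap_dvd (L := L) (pow_ne_zero n hπ.ne_zero) hdvdL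
    have ha''0 : a'' ≠ 0 := by
      rintro rfl
      rw [mul_zero] at ha''
      exact ha ha''
    have hβ' : β' ^ n = algebraMap (𝓞 K) (𝓞 L) a'' * ω := by
      have hπL0 : algebraMap (𝓞 K) (𝓞 L) (π ^ n) ≠ 0 := fun h0 =>
        pow_ne_zero n hπ.ne_zero (hinj (by rw [h0, map_zero]))
      apply mul_left_cancel₀ hπL0
      rw [← mul_assoc, ← map_mul, ← ha'', ← h, map_pow]; ring
    have hlt : DvdNotUnit a'' (π * a') := by
      refine ⟨ha''0, π ^ n, ?_, by rw [ha'']; ring⟩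
      intro hunit
      exact hπ.not_isUnit (isUnit_of_dvd_unit (dvd_pow_self π hn) hunit)
    obtain ⟨a₁, v, hv⟩ := ih a'' hlt ha''0 β' ω hβ'
    exact ⟨π * a₁, v, by rw [ha'', hv]; ring⟩

end

end Fermat.Agent.Lib.Kummer
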