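import Mathlib
import Fermat.Agent.Lib.Kummer.H92
import Fermat.Agent.Lib.Kummer.UnitsIndex
import Fermat.Agent.Lib.Kummer.Unram

/-!
# A PID number field containing `ζ_p` has no unramified Kummer extension `K(u^(1/p))`, `u` a unit
-/

open NumberField

namespace Fermat.Agent.Lib.Kummer

section H94

variable {K L : Type} [Field K] [Field L] [NumberField K] [NumberField L] [Algebra K L]

set_option linter.unusedSectionVars false

/-- The action of `σ ∈ Gal(L/K)` on the units of `𝓞 L`. -/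
noncomputable def unitsGal (σ : L ≃ₐ[K] L) : (𝓞 L)ˣ ≃* (𝓞 L)ˣ :=
  Units.mapEquiv (galRestrict (𝓞 K) K L (𝓞 L) σ).toMulEquiv

lemma val_unitsGal (σ : L ≃ₐ[K] L) (x : (𝓞 L)ˣ) :
    ((unitsGal σ x : (𝓞 L)ˣ) : 𝓞 L) = galRestrict (𝓞 K) K L (𝓞 L) σ (x : 𝓞 L) := rfl

lemma coe_unitsGal (σ : L ≃ₐ[K] L) (x : (𝓞 L)ˣ) :
    algebraMap (𝓞 L) L (unitsGal σ x : 𝓞 L) = σ (algebraMap (𝓞 L) L (x : 𝓞 L)) := by
  simp [unitsGal, algebraMap_galRestrict_apply]

lemma unitsGal_pow (σ : L ≃ₐ[K] L) (i : ℕ) : (unitsGal σ) ^ i = unitsGal (σ ^ i) := by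
  ext x
  show algebraMap (𝓞 L) L _ = algebraMap (𝓞 L) L _
  rw [coe_unitsGal]
  induction i generalizing x with
  | zero => simp
  | succ n ih =>
    rw [pow_succ, pow_succ, MulAut.mul_apply, ih, coe_unitsGal, AlgEquiv.mul_apply]

/-- The units of `𝓞 K` inside the units of `𝓞 L`. -/
noncomputable def unitsMap : (𝓞 K)ˣ →* (𝓞 L)ˣ :=
  Units.map (algebraMap (𝓞 K) (𝓞 L) : 𝓞 K →* 𝓞 L)

lemma coe_unitsMap (x : (𝓞 K)ˣ) :
    algebraMap (𝓞 L) L (unitsMap (L := L) x : 𝓞 L) = algebraMap K L (x : K) := by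
  simp only [unitsMap, Units.coe_map, MonoidHom.coe_coe]
  rw [← IsScalarTower.algebraMap_apply, IsScalarTower.algebraMap_apply (𝓞 K) K L]

lemma unitsMap_injective : Function.Injective (unitsMap (K := K) (L := L)) := by
  intro x y h
  have h1 := congrArg (fun z : (𝓞 L)ˣ => algebraMap (𝓞 L) L (z : 𝓞 L)) h
  simp only [coe_unitsMap] at h1
  exact Units.ext (RingOfIntegers.ext ((algebraMap K L).injective h1))

lemma exists_integer_of_fixed [IsGalois K L] (x : 𝓞 L)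
    (h : ∀ g : L ≃ₐ[K] L, g (algebraMap (𝓞 L) L x) = algebraMap (𝓞 L) L x) :
    ∃ k : 𝓞 K, algebraMap (𝓞 K) (𝓞 L) k = x := by
  obtain ⟨k, hk⟩ := (IsGalois.mem_range_algebraMap_iff_fixed _).mpr h
  have hint : IsIntegral ℤ k := by
    have h1 : IsIntegral ℤ (algebraMap K L k) := by
      rw [hk]; exact RingOfIntegers.isIntegral_coe x
    exact (isIntegral_algebraMap_iff (algebraMap K L).injective).mp h1
  obtain ⟨k', hk'⟩ := (IsIntegralClosure.isIntegral_iff (A := 𝓞 K)).mp hint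
  refine ⟨k', ?_⟩
  apply FaithfulSMul.algebraMap_injective (𝓞 L) L
  rw [← IsScalarTower.algebraMap_apply, IsScalarTower.algebraMap_apply (𝓞 K) K L, ← hk, hk']

lemma mem_range_unitsMap_of_fixed [IsGalois K L] (x : (𝓞 L)ˣ)
    (h : ∀ g : L ≃ₐ[K] L, g (algebraMap (𝓞 L) L x) = algebraMap (𝓞 L) L x) :
    x ∈ (unitsMap (K := K) (L := L)).range := by
  obtain ⟨k, hk⟩ := exists_integer_of_fixed (x : 𝓞 L) h
  obtain ⟨k', hk'⟩ := exists_integer_of_fixed (K := K) ((x⁻¹ : (𝓞 L)ˣ) : 𝓞 L) (fun g => by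
    have h1 : algebraMap (𝓞 L) L ((x⁻¹ : (𝓞 L)ˣ) : 𝓞 L) = (algebraMap (𝓞 L) L x)⁻¹ := by
      rw [eq_comm, inv_eq_iff_eq_inv, ← mul_eq_one_iff_eq_inv₀ (by simp), ← map_mul]; simp
    rw [h1, map_inv₀, h g])
  have hkk : k * k' = 1 := by
    apply FaithfulSMul.algebraMap_injective (𝓞 K) (𝓞 L)
    rw [map_mul, hk, hk', map_one]; simp
  refine ⟨Units.mkOfMulEqOne k k' hkk, ?_⟩
  ext
  simp [unitsMap, hk]

omit [NumberField K] [NumberField L] in
/-- Reindexing a product over a cyclic group of order `p` generated by `σ`. -/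
lemma prod_univ_eq_prod_range_pow {G M : Type*} [Group G] [Fintype G] [CommMonoid M] (σ : G)
    (hσ : ∀ g : G, g ∈ Subgroup.zpowers σ) (f : G → M) :
    ∏ g : G, f g = ∏ i ∈ Finset.range (Nat.card G), f (σ ^ i) := by
  classical
  have hord : orderOf σ = Nat.card G := orderOf_eq_card_of_forall_mem_zpowers hσ
  have hfin : IsOfFinOrder σ := isOfFinOrder_of_finite σ
  have himg : (Finset.univ : Finset G) = (Finset.range (Nat.card G)).image (fun i => σ ^ i) := by
    ext g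
    simp only [Finset.mem_univ, true_iff]
    rw [← hord, ← hfin.mem_powers_iff_mem_range_orderOf, mem_powers_iff_mem_zpowers]
    exact hσ g
  rw [himg, Finset.prod_image]
  intro i hi j hj hij
  rw [← hord] at hi hj
  exact pow_injOn_Iio_orderOf (by simpa using hi) (by simpa using hj) hij

omit [NumberField K] [NumberField L] in
lemma index_range_pow_congr {A B : Type*} [CommGroup A] [CommGroup B] (e : A ≃* B) (p : ℕ) :
    (powMonoidHom p : B →* B).range.index = (powMonoidHom p : A →* A).range.index := by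
  have h : (powMonoidHom p : B →* B).range.comap (e : A →* B) = (powMonoidHom p : A →* A).range := by
    ext x
    simp only [Subgroup.mem_comap, MonoidHom.mem_range, powMonoidHom_apply, MonoidHom.coe_coe]
    constructor
    · rintro ⟨b, hb⟩
      refine ⟨e.symm b, ?_⟩
      apply e.injective
      rw [map_pow, e.apply_symm_apply, hb]
    · rintro ⟨a, ha⟩
      exact ⟨e a, by rw [← map_pow, ha]⟩
  rw [← h, Subgroup.index_comap_of_surjective _ e.surjective]

/-- **Hilbert 94 for a PID.** A number field `K ∋ ζ_p` whose ring of integers is a PID has no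
everywhere unramified extension of the form `K(u^(1/p))` with `u` a unit which is not a `p`-th
power. -/
theorem false_of_unramified_kummer [IsGalois K L] (p : ℕ) [hp : Fact p.Prime] (hp2 : p ≠ 2)
    {ζ : K} (hζ : IsPrimitiveRoot ζ p) [IsPrincipalIdealRing (𝓞 K)]
    (hrank : Module.finrank K L = p) (hd : differentIdeal (𝓞 K) (𝓞 L) = ⊤)
    (u : (𝓞 K)ˣ) (hu : ∀ v : (𝓞 K)ˣ, v ^ p ≠ u) (w : L)
    (hw : w ^ p = algebraMap K L (u : K)) : False := by
  classical
  have hp0 : p ≠ 0 := hp.out.ne_zero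
  -- the Galois group
  have hcard : Nat.card (L ≃ₐ[K] L) = p := by rw [IsGalois.card_aut_eq_finrank, hrank]
  have : IsCyclic (L ≃ₐ[K] L) := isCyclic_of_prime_card hcard
  obtain ⟨σ, hσ⟩ := IsCyclic.exists_generator (α := L ≃ₐ[K] L)
  have hσp : σ ^ p = 1 := by rw [← hcard]; exact pow_card_eq_one'
  have hfix : ∀ x : L, σ x = x → ∀ g : L ≃ₐ[K] L, g x = x := by
    intro x hx g
    have h1 : Subgroup.zpowers σ ≤ MulAction.stabilizer (L ≃ₐ[K] L) x := by
      rw [Subgroup.zpowers_le]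
      exact hx
    exact h1 (hσ g)
  -- the data for Hilbert 92
  set s : ℕ := Module.finrank ℚ K / 2 with hs
  have hζL : IsPrimitiveRoot (algebraMap K L ζ) p := hζ.map_of_injective (algebraMap K L).injective
  have hindL := index_pow_units p hp2 L (algebraMap K L ζ) hζL
  have hindK := index_pow_units p hp2 K ζ hζ
  have hfinrank : Module.finrank ℚ L = Module.finrank ℚ K * p := by
    rw [← hrank, Module.finrank_mul_finrank]
  have hE : p ^ (p * s) ≤ (powMonoidHom p : (𝓞 L)ˣ →* (𝓞 L)ˣ).range.index := by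
    rw [hindL, hfinrank]
    refine Nat.pow_le_pow_right hp.out.pos ?_
    rw [Nat.le_div_iff_mul_le (by norm_num)]
    calc p * s * 2 = p * (s * 2) := by ring
      _ ≤ p * Module.finrank ℚ K := Nat.mul_le_mul_left _ (Nat.div_mul_le_self _ _)
      _ = Module.finrank ℚ K * p := by ring
  have hfin : (powMonoidHom p : (𝓞 L)ˣ →* (𝓞 L)ˣ).range.index ≠ 0 := by
    rw [hindL]; exact pow_ne_zero _ hp0
  set F : Subgroup (𝓞 L)ˣ := (unitsMap (K := K) (L := L)).range with hF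
  have hFind : (powMonoidHom p : F →* F).range.index = p ^ s := by
    rw [index_range_pow_congr (MonoidHom.ofInjective (unitsMap_injective (K := K) (L := L))) p,
      hindK]
  have hFfix : ∀ x : (𝓞 L)ˣ, unitsGal σ x = x ↔ x ∈ F := by
    intro x
    constructor
    · intro hx
      refine mem_range_unitsMap_of_fixed x (hfix _ ?_)
      rw [← coe_unitsGal, hx]
    · rintro ⟨y, rfl⟩
      ext
      show algebraMap (𝓞 L) L _ = algebraMap (𝓞 L) L _
      rw [coe_unitsGal, coe_unitsMap, AlgEquiv.commutes]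
  -- the root `w` as a unit
  have hwint : IsIntegral ℤ w := by
    refine IsIntegral.of_pow hp.out.pos ?_
    rw [hw, ← coe_unitsMap]
    exact RingOfIntegers.isIntegral_coe _
  obtain ⟨w', hw'⟩ := (IsIntegralClosure.isIntegral_iff (A := 𝓞 L)).mp hwint
  have hw'p : w' ^ p = (unitsMap (L := L) u : 𝓞 L) := by
    apply FaithfulSMul.algebraMap_injective (𝓞 L) L
    rw [map_pow, hw', hw, coe_unitsMap]
  have hw'u : IsUnit w' := (isUnit_pow_iff hp0).mp (hw'p ▸ Units.isUnit _)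
  obtain ⟨ε, hεN, hε⟩ := exists_norm_one_not_coboundary p s hp2 (unitsGal σ)
    (fun x => by rw [unitsGal_pow, hσp]; ext; simp [unitsGal]) F hFfix hfin hE hFind.le
    (by rw [hFind]; exact pow_ne_zero _ hp0) (unitsMap u) ⟨u, rfl⟩
    ⟨hw'u.unit, Units.ext (by simpa using hw'p)⟩
    (by
      rintro v ⟨v0, rfl⟩ hv
      rw [← map_pow] at hv
      exact hu v0 (unitsMap_injective hv))
    (by
      intro x hx
      refine mem_range_unitsMap_of_fixed x fun g => ?_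
      have h1 : (algebraMap (𝓞 L) L (x : 𝓞 L)) ^ p = 1 := by
        rw [← map_pow, ← Units.val_pow_eq_pow_val, hx]; simp
      obtain ⟨i, -, hi⟩ := hζL.eq_pow_of_pow_eq_one h1
      rw [← hi, ← map_pow, AlgEquiv.commutes])
    (by
      have : NeZero p := ⟨hp0⟩
      have h1 : Nat.card (rootsOfUnity p (𝓞 L)) ≤ p := card_rootsOfUnity _ _
      have h2 : Nat.card {x : (𝓞 L)ˣ // x ^ p = 1} = Nat.card (rootsOfUnity p (𝓞 L)) :=
        Nat.card_congr (Equiv.subtypeEquivRight fun x => (mem_rootsOfUnity p x).symm)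
      rw [h2]; exact h1)
  -- the norm of `ε` is `1`
  have hεL : ∀ i : ℕ, algebraMap (𝓞 L) L (((unitsGal σ ^ i) ε : (𝓞 L)ˣ) : 𝓞 L) =
      (σ ^ i) (algebraMap (𝓞 L) L ε) := by
    intro i; rw [unitsGal_pow, coe_unitsGal]
  have hnorm : Algebra.norm K (algebraMap (𝓞 L) L (ε : 𝓞 L)) = 1 := by
    apply (algebraMap K L).injective
    rw [Algebra.norm_eq_prod_automorphisms, map_one, prod_univ_eq_prod_range_pow σ hσ, hcard]
    have h1 := congrArg (fun x : (𝓞 L)ˣ => algebraMap (𝓞 L) L (x : 𝓞 L)) hεN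
    simp only [Units.coe_prod, map_prod, hεL, Units.val_one, map_one] at h1
    exact h1
  have hεinv : algebraMap (𝓞 L) L ((ε⁻¹ : (𝓞 L)ˣ) : 𝓞 L) = (algebraMap (𝓞 L) L ε)⁻¹ := by
    rw [eq_comm, inv_eq_iff_eq_inv, ← mul_eq_one_iff_eq_inv₀ (by simp), ← map_mul]; simp
  have hnorm' : Algebra.norm K (algebraMap (𝓞 L) L ((ε⁻¹ : (𝓞 L)ˣ) : 𝓞 L)) = 1 := by
    rw [hεinv, Algebra.norm_inv, hnorm, inv_one]
  -- Hilbert 90
  obtain ⟨β, hβ0, hβ⟩ := groupCohomology.exists_mul_galRestrict_of_norm_eq_one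
    (A := 𝓞 K) (B := 𝓞 L) hσ hnorm'
  have hσβ : galRestrict (𝓞 K) K L (𝓞 L) σ β = ε * β := by
    conv_rhs => rw [← hβ]
    rw [← mul_assoc, Units.mul_inv, one_mul]
  have hpow : ∀ i : ℕ, ∃ c : (𝓞 L)ˣ, galRestrict (𝓞 K) K L (𝓞 L) (σ ^ i) β = c * β := by
    intro i
    induction i with
    | zero => exact ⟨1, by simp⟩
    | succ n ih =>
      obtain ⟨c, hc⟩ := ih
      refine ⟨unitsGal σ c * ε, ?_⟩
      rw [pow_succ', map_mul, AlgEquiv.mul_apply, hc, map_mul, hσβ]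
      rw [Units.val_mul, val_unitsGal]
      ring
  choose c hc using hpow
  have hNβ := prod_galRestrict_eq_norm (A := 𝓞 K) (K := K) (L := L) (B := 𝓞 L) β
  have hprod' : ∏ g : (L ≃ₐ[K] L), galRestrict (𝓞 K) K L (𝓞 L) g β =
      (∏ i ∈ Finset.range p, (c i : 𝓞 L)) * β ^ p := by
    rw [prod_univ_eq_prod_range_pow σ hσ, hcard]
    simp_rw [hc]
    rw [Finset.prod_mul_distrib, Finset.prod_const, Finset.card_range]
  rw [hprod'] at hNβ
  obtain ⟨a, ha⟩ : ∃ a : 𝓞 K, (∏ i ∈ Finset.range p, (c i : 𝓞 L)) * β ^ p =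
      algebraMap (𝓞 K) (𝓞 L) a := ⟨_, hNβ⟩
  set C : (𝓞 L)ˣ := ∏ i ∈ Finset.range p, c i with hC
  have hβp : β ^ p = algebraMap (𝓞 K) (𝓞 L) a * (C⁻¹ : (𝓞 L)ˣ) := by
    rw [← ha, ← Units.coe_prod, ← hC, mul_comm (C : 𝓞 L), mul_assoc, Units.mul_inv, mul_one]
  have ha0 : a ≠ 0 := by
    rintro rfl
    rw [map_zero, zero_mul] at hβp
    exact hβ0 ((pow_eq_zero_iff hp0).mp hβp)
  obtain ⟨a₁, v, hav⟩ := exists_pow_mul_unit_of_different_eq_top hd p hp0 β a ha0 C⁻¹ hβp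
  have ha₁0 : algebraMap (𝓞 K) (𝓞 L) a₁ ≠ 0 := by
    rw [Ne, FaithfulSMul.algebraMap_eq_zero_iff]
    rintro rfl
    rw [zero_pow hp0, mul_zero] at hav
    exact ha0 hav
  have hdvd : algebraMap (𝓞 K) (𝓞 L) a₁ ∣ β := by
    rw [← IsIntegrallyClosed.pow_dvd_pow_iff hp0, hβp, hav, map_mul, map_pow]
    exact ⟨algebraMap _ _ (v : 𝓞 K) * (C⁻¹ : (𝓞 L)ˣ), by ring⟩
  obtain ⟨t, ht⟩ := hdvd
  have htp : t ^ p = algebraMap (𝓞 K) (𝓞 L) v * (C⁻¹ : (𝓞 L)ˣ) := by
    have h1 := hβp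
    rw [ht, mul_pow, hav, map_mul, map_pow] at h1
    apply mul_left_cancel₀ (pow_ne_zero p ha₁0)
    rw [h1]; ring
  have htu : IsUnit t :=
    (isUnit_pow_iff hp0).mp (by rw [htp]; exact ((v.isUnit.map _).mul (Units.isUnit _)))
  have h3 : galRestrict (𝓞 K) K L (𝓞 L) σ t = ε * t := by
    have h4 := hσβ
    rw [ht, map_mul, AlgEquiv.commutes] at h4
    apply mul_left_cancel₀ ha₁0
    rw [h4]; ring
  refine hε htu.unit ?_
  rw [div_eq_iff_eq_mul]
  ext
  show algebraMap (𝓞 L) L _ = algebraMap (𝓞 L) L _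
  rw [val_unitsGal, Units.val_mul, IsUnit.unit_spec, h3]

end H94

end Fermat.Agent.Lib.Kummer
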