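import Mathlib

/-!
# A unit congruent to an integer modulo `p`

`K` is the `p`-th cyclotomic field, `λ = ζ - 1`.  If a unit `η` of `𝓞 K` is congruent to a rational
integer modulo `p`, then `η ^ (p - 1) ≡ 1` modulo `λ ^ p`.
-/

set_option autoImplicit false

namespace Fermat.Agent.Lib.Kummer

open NumberField Polynomial

section TraceNilpotent

/-- Let `S` be a finite free `A`-algebra and `f : A →+* F` a ring homomorphism to a reduced ring
killing `π`.  If `x ^ k` is divisible by `π` in `S`, then `f` kills the trace of `x`. -/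
theorem map_trace_eq_zero_of_pow_eq {A S F : Type*} [CommRing A] [CommRing S] [Algebra A S]
    [Module.Free A S] [Module.Finite A S] [CommRing F] [IsReduced F] (f : A →+* F) (π : A)
    (hπ : f π = 0) (x d : S) (k : ℕ) (h : x ^ k = algebraMap A S π * d) :
    f (Algebra.trace A S x) = 0 := by
  classical
  let ι := Module.Free.ChooseBasisIndex A S
  let b : Module.Basis ι A S := Module.Free.chooseBasis A S
  have hfin : Fintype ι := inferInstance
  rw [Algebra.trace_eq_matrix_trace b]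
  set M := Algebra.leftMulMatrix b x with hM
  set N := Algebra.leftMulMatrix b d with hN
  have hMk : M ^ k = π • N := by
    rw [hM, ← map_pow, h, map_mul, hN, AlgHom.commutes, Algebra.algebraMap_eq_smul_one,
      smul_mul_assoc, one_mul]
  have hφ : (f.mapMatrix M) ^ k = 0 := by
    rw [← map_pow, hMk]
    ext i j
    simp [hπ]
  have hnil : IsNilpotent (f.mapMatrix M) := ⟨k, hφ⟩
  have htr : Matrix.trace (f.mapMatrix M) = 0 :=
    (Matrix.isNilpotent_trace_of_isNilpotent hnil).eq_zero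
  have htr' : Matrix.trace (f.mapMatrix M) = f (Matrix.trace M) := by
    simp [Matrix.trace]
  rw [← htr', htr]

end TraceNilpotent

section UnitCongr

variable {p : ℕ} [hp : Fact p.Prime] {K : Type*} [Field K] [NumberField K]
  [hK : IsCyclotomicExtension {p} ℚ K] {ζ : K} (hζ : IsPrimitiveRoot ζ p)

include hζ

/-- Every element of `𝓞 K` is congruent to a rational integer modulo `λ = ζ - 1`. -/
theorem exists_int_sub_dvd_lam (x : 𝓞 K) :
    ∃ a : ℤ, (hζ.toInteger - 1) ∣ x - (a : 𝓞 K) := by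
  have : NeZero p := ⟨hp.out.ne_zero⟩
  obtain ⟨f, hf⟩ := (IsPrimitiveRoot.integralPowerBasis hζ).exists_eq_aeval' x
  rw [IsPrimitiveRoot.integralPowerBasis_gen] at hf
  refine ⟨f.eval 1, ?_⟩
  have h1 : ((f.eval 1 : ℤ) : 𝓞 K) = (f.map (algebraMap ℤ (𝓞 K))).eval 1 := by
    rw [Polynomial.eval_one_map]
    simp
  have h2 : Polynomial.aeval hζ.toInteger f = (f.map (algebraMap ℤ (𝓞 K))).eval hζ.toInteger := by
    rw [Polynomial.eval_map_algebraMap]
  rw [hf, h1, h2]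
  exact Polynomial.sub_dvd_eval_sub _ _ _

/-- If a unit `η` is congruent to a rational integer modulo `p`, then
`η ^ (p - 1) ≡ 1` modulo `(ζ - 1) ^ p` (section-variable form, see `unit_pow_sub_one_congr`). -/
theorem unit_pow_sub_one_congr_aux (hodd : p ≠ 2)
    (η : (𝓞 K)ˣ) (n : ℤ) (h : (p : 𝓞 K) ∣ (η : 𝓞 K) - (n : 𝓞 K)) :
    (hζ.toInteger - 1) ^ p ∣ ((η ^ (p - 1) : (𝓞 K)ˣ) : 𝓞 K) - 1 := by
  have : NeZero p := ⟨hp.out.ne_zero⟩
  have hlp : Prime (hζ.toInteger - 1) := hζ.zeta_sub_one_prime'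
  have hpZ : Prime (p : ℤ) := Nat.prime_iff_prime_int.mp hp.out
  have hass := IsCyclotomicExtension.Rat.associated_zeta_sub_one_pow_prime p hζ
  have hldvdp : (hζ.toInteger - 1) ∣ (p : 𝓞 K) := hζ.toInteger_sub_one_dvd_prime'
  have hpeven : Even (p - 1) := (hp.out.even_sub_one hodd)
  -- Step 1: `p ∤ n` and `η ^ (p - 1) = 1 + p * b`
  have hpn : ¬ (p : ℤ) ∣ n := by
    intro hpn
    have h1 : (p : 𝓞 K) ∣ (n : 𝓞 K) := by
      obtain ⟨k, hk⟩ := hpn
      exact ⟨(k : 𝓞 K), by rw [hk]; push_cast; ring⟩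
    have h2 : (p : 𝓞 K) ∣ (η : 𝓞 K) := by
      have h3 := dvd_add h h1
      rwa [sub_add_cancel] at h3
    exact hlp.not_isUnit (isUnit_of_dvd_unit (dvd_trans hldvdp h2) η.isUnit)
  have hflt : (p : ℤ) ∣ n ^ (p - 1) - 1 := by
    have hcop : IsCoprime n (p : ℤ) := (Prime.coprime_iff_not_dvd hpZ).mpr hpn |>.symm
    have := Int.ModEq.pow_card_sub_one_eq_one hp.out hcop
    exact (Int.modEq_iff_dvd.mp this.symm)
  obtain ⟨b, hb⟩ : (p : 𝓞 K) ∣ ((η ^ (p - 1) : (𝓞 K)ˣ) : 𝓞 K) - 1 := by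
    have e : ((η ^ (p - 1) : (𝓞 K)ˣ) : 𝓞 K) - 1
        = ((η : 𝓞 K) ^ (p - 1) - (n : 𝓞 K) ^ (p - 1)) + ((n : 𝓞 K) ^ (p - 1) - 1) := by
      push_cast
      ring
    rw [e]
    refine dvd_add (dvd_trans h (sub_dvd_pow_sub_pow _ _ _)) ?_
    obtain ⟨k, hk⟩ := hflt
    refine ⟨(k : 𝓞 K), ?_⟩
    have := congrArg (Int.cast : ℤ → 𝓞 K) hk
    push_cast at this
    exact this
  -- Step 2: the norm of `η ^ (p - 1)` is `1`
  have hnorm : Algebra.norm ℤ (((η ^ (p - 1) : (𝓞 K)ˣ) : 𝓞 K)) = 1 := by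
    have hu : IsUnit (Algebra.norm ℤ (η : 𝓞 K)) := η.isUnit.map (Algebra.norm ℤ)
    rw [Units.val_pow_eq_pow_val, map_pow]
    rcases Int.isUnit_iff.mp hu with h1 | h1
    · rw [h1, one_pow]
    · rw [h1, hpeven.neg_one_pow]
  -- Step 3: `p ∣ Tr b`
  have htr : (p : ℤ) ∣ Algebra.trace ℤ (𝓞 K) b := by
    obtain ⟨r, hr⟩ := Algebra.norm_one_add_smul (p : ℤ) b
    have e : (1 : 𝓞 K) + (p : ℤ) • b = ((η ^ (p - 1) : (𝓞 K)ˣ) : 𝓞 K) := by
      have : (p : ℤ) • b = (p : 𝓞 K) * b := by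
        rw [zsmul_eq_mul]
        push_cast
        rfl
      rw [this, ← hb]
      ring
    rw [e, hnorm] at hr
    have hp0 : (p : ℤ) ≠ 0 := hpZ.ne_zero
    have e2 : (p : ℤ) * (Algebra.trace ℤ (𝓞 K) b + r * p) = 0 := by linear_combination -hr
    rcases mul_eq_zero.mp e2 with h1 | h1
    · exact absurd h1 hp0
    · exact ⟨-r, by linear_combination h1⟩
  -- Step 4: `b = b₀ + λ c`
  obtain ⟨b₀, c, hc⟩ := exists_int_sub_dvd_lam hζ b
  have hbc : b = (b₀ : 𝓞 K) + (hζ.toInteger - 1) * c := by rw [← hc]; ring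
  -- Step 5: `p ∣ Tr (λ c)`
  have htrl : (p : ℤ) ∣ Algebra.trace ℤ (𝓞 K) ((hζ.toInteger - 1) * c) := by
    obtain ⟨u, hu⟩ := hass
    have h0 := map_trace_eq_zero_of_pow_eq (Int.castRingHom (ZMod p)) (p : ℤ) (by simp)
      ((hζ.toInteger - 1) * c) ((↑u⁻¹ : 𝓞 K) * c ^ (p - 1)) (p - 1) (by
        have e1 : algebraMap ℤ (𝓞 K) (p : ℤ) = (p : 𝓞 K) := by simp
        rw [mul_pow, e1, ← hu]
        have : (↑u : 𝓞 K) * ↑u⁻¹ = 1 := by simp
        linear_combination (-(hζ.toInteger - 1) ^ (p - 1) * c ^ (p - 1)) * this)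
    exact (ZMod.intCast_zmod_eq_zero_iff_dvd _ p).mp h0
  -- Step 6: `Tr b₀ = (p - 1) b₀`
  have htr0 : Algebra.trace ℤ (𝓞 K) ((b₀ : 𝓞 K)) = ((p - 1 : ℕ) : ℤ) * b₀ := by
    have h1 : ((b₀ : ℤ) : 𝓞 K) = algebraMap ℤ (𝓞 K) b₀ := by simp
    rw [h1, Algebra.trace_algebraMap, RingOfIntegers.rank, IsCyclotomicExtension.Rat.finrank p K,
      Nat.totient_prime hp.out]
    simp
  have hpb₀ : (p : ℤ) ∣ b₀ := by
    have h1 : Algebra.trace ℤ (𝓞 K) b
        = ((p - 1 : ℕ) : ℤ) * b₀ + Algebra.trace ℤ (𝓞 K) ((hζ.toInteger - 1) * c) := by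
      rw [hbc, map_add, htr0]
    have h2 : (p : ℤ) ∣ ((p - 1 : ℕ) : ℤ) * b₀ := by
      have := dvd_sub htr htrl
      rwa [h1, add_sub_cancel_right] at this
    have h3 : ((p - 1 : ℕ) : ℤ) = (p : ℤ) - 1 := by
      rw [Nat.cast_sub hp.out.one_le]
      simp
    rw [h3] at h2
    have h4 : (p : ℤ) ∣ (p : ℤ) * b₀ - ((p : ℤ) - 1) * b₀ := dvd_sub (dvd_mul_right _ _) h2
    have e : (p : ℤ) * b₀ - ((p : ℤ) - 1) * b₀ = b₀ := by ring
    rwa [e] at h4
  -- Step 7: `λ ∣ b`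
  have hlb : (hζ.toInteger - 1) ∣ b := by
    rw [hbc]
    refine dvd_add ?_ (dvd_mul_right _ _)
    obtain ⟨k, hk⟩ := hpb₀
    refine dvd_trans hldvdp ⟨(k : 𝓞 K), ?_⟩
    rw [hk]
    push_cast
    ring
  -- Step 8: conclusion
  obtain ⟨b', hb'⟩ := hlb
  obtain ⟨u, hu⟩ := hass
  rw [hb, hb', ← hu]
  refine ⟨(u : 𝓞 K) * b', ?_⟩
  have e : (hζ.toInteger - 1) ^ p = (hζ.toInteger - 1) ^ (p - 1) * (hζ.toInteger - 1) := by
    rw [← pow_succ, Nat.sub_add_cancel hp.out.one_le]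
  rw [e]
  ring

end UnitCongr

/-- **Kummer D5.** If a unit `η` of the ring of integers of the `p`-th cyclotomic field is
congruent to a rational integer modulo `p`, then `η ^ (p - 1) ≡ 1` modulo `(ζ - 1) ^ p`. -/
theorem unit_pow_sub_one_congr {p : ℕ} [Fact p.Prime] (hodd : p ≠ 2) {K : Type*} [Field K]
    [NumberField K] [IsCyclotomicExtension {p} ℚ K] {ζ : K} (hζ : IsPrimitiveRoot ζ p)
    (η : (𝓞 K)ˣ) (n : ℤ) (h : (p : 𝓞 K) ∣ (η : 𝓞 K) - (n : 𝓞 K)) :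
    (hζ.toInteger - 1) ^ p ∣ ((η ^ (p - 1) : (𝓞 K)ˣ) : 𝓞 K) - 1 :=
  unit_pow_sub_one_congr_aux hζ hodd η n h

end Fermat.Agent.Lib.Kummer

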