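import Mathlib
import Fermat.Agent.Lib.Kummer.Different
import Fermat.Agent.Lib.Kummer.H94
import Fermat.Agent.Lib.Kummer.UnitCongr

/-!
# Kummer's lemma for cyclotomic fields of class number one
-/

open NumberField Polynomial

namespace Fermat.Agent.Lib.Kummer

section

variable {K : Type} [Field K] [NumberField K]

/-- A unit `u ≡ 1 mod (ζ - 1)^p` of a PID number field containing `ζ_p` is a `p`-th power. -/
theorem exists_pow_eq_of_congr_one (p : ℕ) [hp : Fact p.Prime] (hp2 : p ≠ 2) {ζ : K}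
    (hζ : IsPrimitiveRoot ζ p) [IsPrincipalIdealRing (𝓞 K)] (u : (𝓞 K)ˣ)
    (hu1 : (hζ.toInteger - 1) ^ p ∣ (u : 𝓞 K) - 1) : ∃ v : (𝓞 K)ˣ, v ^ p = u := by
  by_contra hcon
  push Not at hcon
  have hp0 : p ≠ 0 := hp.out.ne_zero
  have : NeZero p := ⟨hp0⟩
  -- `u` is not a `p`-th power in `K`
  have hK : ∀ b : K, b ^ p ≠ ((u : 𝓞 K) : K) := by
    intro b hb
    have hbint : IsIntegral ℤ b := by
      refine IsIntegral.of_pow hp.out.pos ?_
      rw [hb]
      exact RingOfIntegers.isIntegral_coe _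
    obtain ⟨b', hb'⟩ := (IsIntegralClosure.isIntegral_iff (A := 𝓞 K)).mp hbint
    have hb'p : b' ^ p = (u : 𝓞 K) := by
      apply FaithfulSMul.algebraMap_injective (𝓞 K) K
      rw [map_pow, hb', hb]
    have hb'u : IsUnit b' := (isUnit_pow_iff hp0).mp (hb'p ▸ u.isUnit)
    exact hcon hb'u.unit (Units.ext (by simpa using hb'p))
  have H : Irreducible (X ^ p - C ((u : 𝓞 K) : K)) := X_pow_sub_C_irreducible_of_prime hp.out hK
  have hζ' : (primitiveRoots p K).Nonempty := ⟨ζ, (mem_primitiveRoots hp.out.pos).mpr hζ⟩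
  -- the splitting field
  let L : Type := (X ^ p - C ((u : 𝓞 K) : K)).SplittingField
  have hchar : CharZero L := charZero_of_injective_algebraMap (algebraMap K L).injective
  have hfd : FiniteDimensional ℚ L := Module.Finite.trans K L
  have hnf : NumberField L := { }
  have hgal : IsGalois K L := isGalois_of_isSplittingField_X_pow_sub_C hζ' H L
  have hrank : Module.finrank K L = p := finrank_of_isSplittingField_X_pow_sub_C hζ' H L
  let w : L := rootOfSplitsXPowSubC (NeZero.pos p) ((u : 𝓞 K) : K) L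
  have hw : w ^ p = algebraMap K L ((u : 𝓞 K) : K) := rootOfSplitsXPowSubC_pow _ _
  have hL : Algebra.adjoin K {w} = ⊤ := Algebra.adjoin_root_eq_top_of_isSplittingField hζ' H hw
  have hd : differentIdeal (𝓞 K) (𝓞 L) = ⊤ := differentIdeal_eq_top_of_root p hζ u hu1 w hw hL
  exact false_of_unramified_kummer p hp2 hζ hrank hd u hcon w hw

/-- **Kummer's lemma** for a cyclotomic field `ℚ(ζ_p)` of class number one: a unit which is
congruent to a rational integer modulo `p` is a `p`-th power. -/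
theorem kummer_lemma {p : ℕ} [hp : Fact p.Prime] (hp2 : p ≠ 2) [IsCyclotomicExtension {p} ℚ K]
    [IsPrincipalIdealRing (𝓞 K)] (η : (𝓞 K)ˣ) (n : ℤ)
    (h : (p : 𝓞 K) ∣ (η : 𝓞 K) - (n : 𝓞 K)) : ∃ η₁ : (𝓞 K)ˣ, η = η₁ ^ p := by
  have hζ := IsCyclotomicExtension.zeta_spec p ℚ K
  obtain ⟨v, hv⟩ := exists_pow_eq_of_congr_one p hp2 hζ (η ^ (p - 1))
    (unit_pow_sub_one_congr hp2 hζ η n h)
  refine ⟨η * v⁻¹, ?_⟩
  have h1 : p - 1 + 1 = p := Nat.sub_add_cancel hp.out.one_lt.le
  rw [mul_pow, inv_pow, hv, ← h1, pow_succ, Nat.add_sub_cancel]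
  simp

end

end Fermat.Agent.Lib.Kummer
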