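import Fermat.Agent.Lib.Kummer.PIDBound

/-!
# `𝓞 (ℚ(ζ_ℓ))` is a PID for `ℓ = 7, 11` (Minkowski bound + Kummer-Dedekind certificates)
-/

namespace Fermat.Agent.Lib.Kummer

open NumberField Polynomial Ideal IsCyclotomicExtension.Rat IsCyclotomicExtension RingOfIntegers
open Fermat.Agent.Lib.Kummer.PID

universe u

namespace PID

theorem fact_prime_twentythree : Fact (Nat.Prime 23) := ⟨by norm_num⟩

/-- Bounded form of the "no small power is `≡ 1`" check, suitable for `decide`. -/
theorem pow_ne_one_of_bounded (ℓ B q n : ℕ) (hq : 2 ≤ q) (hB : B < 2 ^ n)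
    (h : ∀ k ∈ Finset.range n, 0 < k → q ^ k ≤ B → (q : ZMod ℓ) ^ k ≠ 1) :
    ∀ k, 0 < k → q ^ k ≤ B → (q : ZMod ℓ) ^ k ≠ 1 := by
  intro k hk hle
  refine h k (Finset.mem_range.mpr ?_) hk hle
  by_contra hcon
  rw [not_lt] at hcon
  have h1 : 2 ^ n ≤ q ^ k :=
    (Nat.pow_le_pow_right (by norm_num) hcon).trans (Nat.pow_le_pow_left hq k)
  omega

end PID

section seven

variable (K : Type u) [Field K] [NumberField K] [IsCyclotomicExtension {7} ℚ K]

/-- If `IsCyclotomicExtension {7} ℚ K` then `𝓞 K` is a principal ideal domain. -/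
theorem seven_pid : IsPrincipalIdealRing (𝓞 K) := by
  have := fact_prime_seven
  refine isPrincipalIdealRing_of_certificates 7 K 4 (minkowski_floor_le_seven K) ?_
  intro q hq hqB hq7
  left
  refine pow_ne_one_of_bounded 7 4 q 3 hq.two_le (by norm_num) ?_
  interval_cases q <;>
    first
    | decide
    | (exfalso; norm_num at hq; done)

end seven

section eleven

variable (K : Type u) [Field K] [NumberField K] [IsCyclotomicExtension {11} ℚ K]

theorem PID.root_eleven_twentythree :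
    ∑ i ∈ Finset.range 11, (((-10 : ℤ) : ZMod 23)) ^ i = 0 := by decide

theorem PID.exists_isPrincipal_eleven_twentythree :
    ∃ P ∈ primesOver (span {((23 : ℕ) : ℤ)}) (𝓞 K), Submodule.IsPrincipal P := by
  have := fact_prime_eleven
  have := fact_prime_twentythree
  have hΦ := zetaInt_geom_sum 11 K
  simp only [Finset.sum_range_succ, Finset.sum_range_zero, zero_add, pow_zero, pow_one] at hΦ
  set θ := zetaInt 11 K with hθ
  refine exists_isPrincipal_of_root 11 K 23 (-10) PID.root_eleven_twentythree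
    (1 - θ + θ ^ 3)
    (8 - 2 * θ - θ ^ 2 - 8 * θ ^ 3 - 5 * θ ^ 4 - 3 * θ ^ 5 + 6 * θ ^ 6 + 12 * θ ^ 7 + 16 * θ ^ 8
      + 11 * θ ^ 9)
    (3 - θ - θ ^ 2 - 4 * θ ^ 3 - 3 * θ ^ 4 - 2 * θ ^ 5 + 2 * θ ^ 6 + 5 * θ ^ 7 + 7 * θ ^ 8
      + 5 * θ ^ 9)
    (-43) (99 - 10 * θ + θ ^ 2) ?_ ?_ ?_
  · push_cast
    linear_combination (-15 + 5 * θ + 11 * θ ^ 2) * hΦ
  · push_cast
    linear_combination (-7 + 2 * θ + 5 * θ ^ 2) * hΦ
  · push_cast
    ring

/-- If `IsCyclotomicExtension {11} ℚ K` then `𝓞 K` is a principal ideal domain. -/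
theorem eleven_pid : IsPrincipalIdealRing (𝓞 K) := by
  have := fact_prime_eleven
  refine isPrincipalIdealRing_of_certificates 11 K 66 (minkowski_floor_le_eleven K) ?_
  intro q hq hqB hq11
  by_cases h23 : q = 23
  · subst h23
    exact Or.inr (exists_isPrincipal_eleven_twentythree K)
  left
  refine pow_ne_one_of_bounded 11 66 q 7 hq.two_le (by norm_num) ?_
  interval_cases q <;>
    first
    | decide
    | (exfalso; norm_num at hq; done)
    | (exfalso; exact hq11 rfl)
    | (exfalso; exact h23 rfl)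

end eleven

end Fermat.Agent.Lib.Kummer
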