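import Fermat.Agent.Lib.Kummer.PID

/-!
# `𝓞 (ℚ(ζ₁₃))` is a PID (Minkowski bound 306 + certificates for 3, 53, 79, 131, 157)
-/

namespace Fermat.Agent.Lib.Kummer

open NumberField Polynomial Ideal IsCyclotomicExtension.Rat IsCyclotomicExtension RingOfIntegers
open Fermat.Agent.Lib.Kummer.PID

universe u

namespace PID

section general

variable (ℓ : ℕ) [hℓ : Fact ℓ.Prime] (K : Type*) [Field K] [NumberField K]
  [hK : IsCyclotomicExtension {ℓ} ℚ K]

/-- Higher degree certificate: the prime `(q, Q(ζ))` is generated by `Q(ζ)` when `q ∈ (Q(ζ))`. -/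
theorem exists_isPrincipal_of_factor (q : ℕ) [Fact q.Prime] (Q : ℤ[X])
    (hirr : Irreducible (Q.map (Int.castRingHom (ZMod q))))
    (hmonic : (Q.map (Int.castRingHom (ZMod q))).Monic)
    (hdvd : Q.map (Int.castRingHom (ZMod q)) ∣ cyclotomic ℓ (ZMod q))
    (β : 𝓞 K) (h1 : β * aeval (zetaInt ℓ K) Q = q) :
    ∃ P ∈ primesOver (span {(q : ℤ)}) (𝓞 K), Submodule.IsPrincipal P := by
  refine ⟨span {(q : 𝓞 K), aeval (zetaInt ℓ K) Q},
    span_pair_mem_primesOver ℓ K q Q hirr hmonic hdvd, ⟨aeval (zetaInt ℓ K) Q, ?_⟩⟩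
  rw [submodule_span_eq]
  apply le_antisymm
  · rw [span_le]
    intro x hx
    rcases hx with rfl | hx
    · exact mem_span_singleton'.mpr ⟨β, h1⟩
    · rw [Set.mem_singleton_iff] at hx
      subst hx
      exact mem_span_singleton_self _
  · exact span_mono (by simp)

end general

theorem fact_prime_three : Fact (Nat.Prime 3) := ⟨by norm_num⟩
theorem fact_prime_fiftythree : Fact (Nat.Prime 53) := ⟨by norm_num⟩
theorem fact_prime_seventynine : Fact (Nat.Prime 79) := ⟨by norm_num⟩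
theorem fact_prime_onethirtyone : Fact (Nat.Prime 131) := ⟨by norm_num⟩
theorem fact_prime_onefiftyseven : Fact (Nat.Prime 157) := ⟨by norm_num⟩

theorem root_thirteen_fiftythree :
    ∑ i ∈ Finset.range 13, (((16 : ℤ) : ZMod 53)) ^ i = 0 := by decide

theorem root_thirteen_seventynine :
    ∑ i ∈ Finset.range 13, (((-17 : ℤ) : ZMod 79)) ^ i = 0 := by decide

theorem root_thirteen_onethirtyone :
    ∑ i ∈ Finset.range 13, (((-51 : ℤ) : ZMod 131)) ^ i = 0 := by decide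

theorem root_thirteen_onefiftyseven :
    ∑ i ∈ Finset.range 13, (((75 : ℤ) : ZMod 157)) ^ i = 0 := by decide

section thirteen

variable (K : Type u) [Field K] [NumberField K] [IsCyclotomicExtension {13} ℚ K]

theorem exists_isPrincipal_thirteen_fiftythree :
    ∃ P ∈ primesOver (span {((53 : ℕ) : ℤ)}) (𝓞 K), Submodule.IsPrincipal P := by
  have := fact_prime_thirteen
  have := fact_prime_fiftythree
  have hΦ := zetaInt_geom_sum 13 K
  simp only [Finset.sum_range_succ, Finset.sum_range_zero, zero_add, pow_zero, pow_one] at hΦ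
  set θ := zetaInt 13 K with hθ
  refine exists_isPrincipal_of_root 13 K 53 16 root_thirteen_fiftythree
    (1 - θ + θ ^ 3)
    (25 + 10 * θ + 19 * θ ^ 2 + 3 * θ ^ 3 + 2 * θ ^ 4 - 8 * θ ^ 5 - 2 * θ ^ 6 + 5 * θ ^ 7
      + 22 * θ ^ 8 + 33 * θ ^ 9 + 37 * θ ^ 10 + 24 * θ ^ 11)
    (-8 - 3 * θ - 6 * θ ^ 2 - θ ^ 3 - θ ^ 4 + 2 * θ ^ 5 - 2 * θ ^ 7 - 7 * θ ^ 8 - 10 * θ ^ 9
      - 11 * θ ^ 10 - 7 * θ ^ 11)
    77 (255 + 16 * θ + θ ^ 2) ?_ ?_ ?_
  · push_cast
    linear_combination (-28 + 13 * θ + 24 * θ ^ 2) * hΦ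
  · push_cast
    linear_combination (8 - 4 * θ - 7 * θ ^ 2) * hΦ
  · push_cast
    ring

theorem exists_isPrincipal_thirteen_seventynine :
    ∃ P ∈ primesOver (span {((79 : ℕ) : ℤ)}) (𝓞 K), Submodule.IsPrincipal P := by
  have := fact_prime_thirteen
  have := fact_prime_seventynine
  have hΦ := zetaInt_geom_sum 13 K
  simp only [Finset.sum_range_succ, Finset.sum_range_zero, zero_add, pow_zero, pow_one] at hΦ
  set θ := zetaInt 13 K with hθ
  refine exists_isPrincipal_of_root 13 K 79 (-17) root_thirteen_seventynine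
    (1 - θ - θ ^ 4)
    (62 + 63 * θ + 49 * θ ^ 2 + 8 * θ ^ 3 + 29 * θ ^ 4 + 51 * θ ^ 5 + 59 * θ ^ 6 + 26 * θ ^ 7
      + 14 * θ ^ 8 + 24 * θ ^ 9 + 42 * θ ^ 10 + 27 * θ ^ 11)
    (13 + 14 * θ + 11 * θ ^ 2 + 2 * θ ^ 3 + 6 * θ ^ 4 + 11 * θ ^ 5 + 13 * θ ^ 6 + 6 * θ ^ 7
      + 3 * θ ^ 8 + 5 * θ ^ 9 + 9 * θ ^ 10 + 6 * θ ^ 11)
    (-1057) (4912 - 289 * θ + 17 * θ ^ 2 - θ ^ 3) ?_ ?_ ?_
  · push_cast
    linear_combination (-17 + 18 * θ - 15 * θ ^ 2 - 27 * θ ^ 3) * hΦ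
  · push_cast
    linear_combination (-4 + 4 * θ - 3 * θ ^ 2 - 6 * θ ^ 3) * hΦ
  · push_cast
    ring

theorem exists_isPrincipal_thirteen_onethirtyone :
    ∃ P ∈ primesOver (span {((131 : ℕ) : ℤ)}) (𝓞 K), Submodule.IsPrincipal P := by
  have := fact_prime_thirteen
  have := fact_prime_onethirtyone
  have hΦ := zetaInt_geom_sum 13 K
  simp only [Finset.sum_range_succ, Finset.sum_range_zero, zero_add, pow_zero, pow_one] at hΦ
  set θ := zetaInt 13 K with hθ
  refine exists_isPrincipal_of_root 13 K 131 (-51) root_thirteen_onethirtyone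
    (1 - θ - θ ^ 3)
    (111 + 78 * θ + 17 * θ ^ 2 + 67 * θ ^ 3 + 84 * θ ^ 4 + 40 * θ ^ 5 + 46 * θ ^ 6 + 69 * θ ^ 7
      + 48 * θ ^ 8 + 33 * θ ^ 9 + 41 * θ ^ 10 + 28 * θ ^ 11)
    (43 + 31 * θ + 7 * θ ^ 2 + 26 * θ ^ 3 + 33 * θ ^ 4 + 16 * θ ^ 5 + 18 * θ ^ 6 + 27 * θ ^ 7
      + 19 * θ ^ 8 + 13 * θ ^ 9 + 16 * θ ^ 10 + 11 * θ ^ 11)
    1013 (-2602 + 51 * θ - θ ^ 2) ?_ ?_ ?_
  · push_cast
    linear_combination (-20 - 13 * θ - 28 * θ ^ 2) * hΦ
  · push_cast
    linear_combination (-8 - 5 * θ - 11 * θ ^ 2) * hΦ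
  · push_cast
    ring

theorem exists_isPrincipal_thirteen_onefiftyseven :
    ∃ P ∈ primesOver (span {((157 : ℕ) : ℤ)}) (𝓞 K), Submodule.IsPrincipal P := by
  have := fact_prime_thirteen
  have := fact_prime_onefiftyseven
  have hΦ := zetaInt_geom_sum 13 K
  simp only [Finset.sum_range_succ, Finset.sum_range_zero, zero_add, pow_zero, pow_one] at hΦ
  set θ := zetaInt 13 K with hθ
  refine exists_isPrincipal_of_root 13 K 157 75 root_thirteen_onefiftyseven
    (1 - θ + θ ^ 2 + θ ^ 4)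
    (89 + 86 * θ + 42 * θ ^ 2 + 77 * θ ^ 3 + 67 * θ ^ 4 + 25 * θ ^ 5 + 37 * θ ^ 6 + 56 * θ ^ 7
      + 73 * θ ^ 8 + 113 * θ ^ 9 + 124 * θ ^ 10 + 76 * θ ^ 11)
    (-43 - 41 * θ - 20 * θ ^ 2 - 37 * θ ^ 3 - 32 * θ ^ 4 - 12 * θ ^ 5 - 18 * θ ^ 6 - 27 * θ ^ 7
      - 35 * θ ^ 8 - 54 * θ ^ 9 - 59 * θ ^ 10 - 36 * θ ^ 11)
    201568 (421949 + 5626 * θ + 75 * θ ^ 2 + θ ^ 3) ?_ ?_ ?_
  · push_cast
    linear_combination (-68 + 65 * θ + 48 * θ ^ 2 + 76 * θ ^ 3) * hΦ
  · push_cast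
    linear_combination (32 - 31 * θ - 23 * θ ^ 2 - 36 * θ ^ 3) * hΦ
  · push_cast
    ring

/-- The cubic `X³ - X - 1` modulo 3. -/
theorem map_cubic_three :
    (X ^ 3 - X - 1 : ℤ[X]).map (Int.castRingHom (ZMod 3)) = X ^ 3 - X - 1 := by
  simp

theorem natDegree_cubic_three : (X ^ 3 - X - 1 : (ZMod 3)[X]).natDegree = 3 := by
  have h : (X ^ 3 - X - 1 : (ZMod 3)[X]) = X ^ 3 + (C (-1) * X + C (-1)) := by
    simp only [map_neg, map_one]; ring
  rw [h]
  compute_degree!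

theorem monic_cubic_three : (X ^ 3 - X - 1 : (ZMod 3)[X]).Monic := by
  have h : (X ^ 3 - X - 1 : (ZMod 3)[X]) = X ^ 3 + (C (-1) * X + C (-1)) := by
    simp only [map_neg, map_one]; ring
  rw [h]
  monicity!

theorem irreducible_cubic_three : Irreducible (X ^ 3 - X - 1 : (ZMod 3)[X]) := by
  refine irreducible_of_degree_le_three_of_not_isRoot ?_ ?_
  · rw [natDegree_cubic_three]; decide
  · intro x
    simp only [IsRoot.def, eval_sub, eval_pow, eval_X, eval_one]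
    revert x
    decide

theorem cubic_dvd_cyclotomic_thirteen :
    (X ^ 3 - X - 1 : (ZMod 3)[X]) ∣ cyclotomic 13 (ZMod 3) := by
  have := fact_prime_thirteen
  have h3 : (3 : (ZMod 3)[X]) = 0 := by
    have : ((3 : ℕ) : (ZMod 3)[X]) = 0 := CharP.cast_eq_zero _ 3
    exact_mod_cast this
  refine ⟨-1 - X ^ 2 - X ^ 3 + X ^ 5 - X ^ 7 + X ^ 8 + X ^ 9, ?_⟩
  rw [cyclotomic_prime]
  simp only [Finset.sum_range_succ, Finset.sum_range_zero, zero_add, pow_zero, pow_one]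
  linear_combination (X ^ 5 + X ^ 6 + X ^ 9 + X ^ 10 : (ZMod 3)[X]) * h3

theorem exists_isPrincipal_thirteen_three :
    ∃ P ∈ primesOver (span {((3 : ℕ) : ℤ)}) (𝓞 K), Submodule.IsPrincipal P := by
  have := fact_prime_thirteen
  have := fact_prime_three
  have hΦ := zetaInt_geom_sum 13 K
  simp only [Finset.sum_range_succ, Finset.sum_range_zero, zero_add, pow_zero, pow_one] at hΦ
  set θ := zetaInt 13 K with hθ
  refine exists_isPrincipal_of_factor 13 K 3 (X ^ 3 - X - 1)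
    (by rw [map_cubic_three]; exact irreducible_cubic_three)
    (by rw [map_cubic_three]; exact monic_cubic_three)
    (by rw [map_cubic_three]; exact cubic_dvd_cyclotomic_thirteen)
    (1 + θ ^ 2 + θ ^ 3 + 2 * θ ^ 5 + θ ^ 7 + 2 * θ ^ 8 - θ ^ 9 + 3 * θ ^ 10) ?_
  have haeval : aeval θ (X ^ 3 - X - 1 : ℤ[X]) = θ ^ 3 - θ - 1 := by simp
  rw [haeval]
  push_cast
  linear_combination (-4 + 3 * θ) * hΦ

end thirteen

end PID

section thirteen

variable (K : Type u) [Field K] [NumberField K] [IsCyclotomicExtension {13} ℚ K]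

/-- If `IsCyclotomicExtension {13} ℚ K` then `𝓞 K` is a principal ideal domain. -/
theorem thirteen_pid : IsPrincipalIdealRing (𝓞 K) := by
  have := fact_prime_thirteen
  refine isPrincipalIdealRing_of_certificates 13 K 312 (minkowski_floor_le_thirteen K) ?_
  intro q hq hqB hq13
  by_cases h3 : q = 3
  · subst h3
    exact Or.inr (exists_isPrincipal_thirteen_three K)
  by_cases h53 : q = 53
  · subst h53
    exact Or.inr (exists_isPrincipal_thirteen_fiftythree K)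
  by_cases h79 : q = 79
  · subst h79
    exact Or.inr (exists_isPrincipal_thirteen_seventynine K)
  by_cases h131 : q = 131
  · subst h131
    exact Or.inr (exists_isPrincipal_thirteen_onethirtyone K)
  by_cases h157 : q = 157
  · subst h157
    exact Or.inr (exists_isPrincipal_thirteen_onefiftyseven K)
  left
  refine pow_ne_one_of_bounded 13 312 q 9 hq.two_le (by norm_num) ?_
  interval_cases q <;>
    first
    | decide
    | (exfalso; norm_num at hq; done)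
    | (exfalso; exact h3 rfl)
    | (exfalso; exact h53 rfl)
    | (exfalso; exact h79 rfl)
    | (exfalso; exact h131 rfl)
    | (exfalso; exact h157 rfl)

end thirteen

end Fermat.Agent.Lib.Kummer
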