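import Mathlib
import Fermat.Agent.Lib.Kummer.CaseI
import Fermat.Agent.Lib.Kummer.CaseII
import Fermat.Agent.Lib.Kummer.PID
import Fermat.Agent.Lib.Kummer.PIDThirteen
import Fermat.Agent.Lib.Kummer.KummerLemma

/-!
# Fermat's Last Theorem for the exponents 5, 7, 11, 13 (Kummer, class number one)
-/

open NumberField

namespace Fermat.Agent.Lib.Kummer

set_option backward.isDefEq.respectTransparency false in
/-- Fermat's Last Theorem for an odd prime exponent `p` such that `ℚ(ζ_p)` has class number one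
and Case I is known. -/
theorem flt_of_pid (p : ℕ) [Fact p.Prime] (hp2 : p ≠ 2)
    (hcaseI : ∀ a b c : ℤ, a ^ p + b ^ p = c ^ p → Int.gcd a b = 1 → (p : ℤ) ∣ a * b * c)
    (hpid : IsPrincipalIdealRing (𝓞 (CyclotomicField p ℚ)))
    (a b c : ℤ) (ha : a ≠ 0) (hb : b ≠ 0) (hc : c ≠ 0) (hgcd : gcd a b = 1)
    (h : a ^ p + b ^ p = c ^ p) : False := by
  have : NeZero p := ⟨(Fact.out : p.Prime).ne_zero⟩
  have hg : Int.gcd a b = 1 := by
    have := Int.coe_gcd a b
    rw [hgcd] at this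
    exact_mod_cast this
  exact caseII hp2 (CyclotomicField p ℚ) (fun η n hη => kummer_lemma hp2 η n hη) a b c ha hb hc
    (Int.isCoprime_iff_gcd_eq_one.mpr hg) (hcaseI a b c h hg) h

set_option backward.isDefEq.respectTransparency false in
theorem flt_eleven (a b c : ℤ) (ha : a ≠ 0) (hb : b ≠ 0) (hc : c ≠ 0) (hgcd : gcd a b = 1)
    (h : a ^ 11 + b ^ 11 = c ^ 11) : False :=
  have : Fact (Nat.Prime 11) := ⟨by norm_num⟩
  flt_of_pid 11 (by norm_num) caseI_11 (eleven_pid _) a b c ha hb hc hgcd h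

set_option backward.isDefEq.respectTransparency false in
theorem flt_seven (a b c : ℤ) (ha : a ≠ 0) (hb : b ≠ 0) (hc : c ≠ 0) (hgcd : gcd a b = 1)
    (h : a ^ 7 + b ^ 7 = c ^ 7) : False :=
  have : Fact (Nat.Prime 7) := ⟨by norm_num⟩
  flt_of_pid 7 (by norm_num) caseI_7 (seven_pid _) a b c ha hb hc hgcd h

set_option backward.isDefEq.respectTransparency false in
theorem flt_thirteen (a b c : ℤ) (ha : a ≠ 0) (hb : b ≠ 0) (hc : c ≠ 0) (hgcd : gcd a b = 1)
    (h : a ^ 13 + b ^ 13 = c ^ 13) : False :=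
  have : Fact (Nat.Prime 13) := ⟨by norm_num⟩
  flt_of_pid 13 (by norm_num) caseI_13 (thirteen_pid _) a b c ha hb hc hgcd h

set_option backward.isDefEq.respectTransparency false in
theorem flt_five (a b c : ℤ) (ha : a ≠ 0) (hb : b ≠ 0) (hc : c ≠ 0) (hgcd : gcd a b = 1)
    (h : a ^ 5 + b ^ 5 = c ^ 5) : False :=
  have : Fact (Nat.Prime 5) := ⟨by norm_num⟩
  flt_of_pid 5 (by norm_num) caseI_5 (IsCyclotomicExtension.Rat.five_pid _) a b c ha hb hc hgcd h

end Fermat.Agent.Lib.Kummer
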