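import Mathlib

/-!
# Principal primes in prime cyclotomic rings of integers (Kummer-Dedekind certificates)

General lemmas used to prove that `𝓞 K` is a PID for `K = ℚ(ζ_ℓ)`, `ℓ ∈ {7, 11, 13}`.
-/

namespace Fermat.Agent.Lib.Kummer.PID

open NumberField Polynomial Ideal IsCyclotomicExtension.Rat IsCyclotomicExtension RingOfIntegers
  NumberField.Ideal

section general

variable (ℓ : ℕ) [hℓ : Fact ℓ.Prime] (K : Type*) [Field K] [NumberField K]
  [hK : IsCyclotomicExtension {ℓ} ℚ K]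

/-- The standard generator `ζ` of `𝓞 K`. -/
noncomputable def zetaInt : 𝓞 K := (zeta_spec ℓ ℚ K).toInteger

theorem zetaInt_isPrimitiveRoot : IsPrimitiveRoot (zetaInt ℓ K) ℓ :=
  (zeta_spec ℓ ℚ K).toInteger_isPrimitiveRoot

theorem zetaInt_geom_sum : ∑ i ∈ Finset.range ℓ, (zetaInt ℓ K) ^ i = 0 :=
  (zetaInt_isPrimitiveRoot ℓ K).geom_sum_eq_zero hℓ.out.one_lt

theorem zetaInt_not_dvd_exponent (q : ℕ) [Fact q.Prime] : ¬ q ∣ exponent (zetaInt ℓ K) := by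
  unfold zetaInt
  rw [exponent_eq_one_iff.mpr <| adjoin_singleton_eq_top (zeta_spec ℓ ℚ K)]
  exact (Fact.out : q.Prime).not_dvd_one

theorem map_minpoly_zetaInt (q : ℕ) :
    (minpoly ℤ (zetaInt ℓ K)).map (Int.castRingHom (ZMod q)) = cyclotomic ℓ (ZMod q) := by
  rw [← map_cyclotomic_int, cyclotomic_eq_minpoly (zeta_spec ℓ ℚ K) hℓ.out.pos,
    ← (zeta_spec ℓ ℚ K).coe_toInteger, ← RingOfIntegers.minpoly_coe (zetaInt ℓ K)]
  rfl

/-- Kummer-Dedekind: if `Q mod q` is a monic irreducible factor of `Φ_ℓ mod q`, then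
`(q, Q(ζ))` is a prime of `𝓞 K` over `q`. -/
theorem span_pair_mem_primesOver (q : ℕ) [Fact q.Prime] (Q : ℤ[X])
    (hirr : Irreducible (Q.map (Int.castRingHom (ZMod q))))
    (hmonic : (Q.map (Int.castRingHom (ZMod q))).Monic)
    (hdvd : Q.map (Int.castRingHom (ZMod q)) ∣ cyclotomic ℓ (ZMod q)) :
    span {(q : 𝓞 K), aeval (zetaInt ℓ K) Q} ∈ primesOver (span {(q : ℤ)}) (𝓞 K) := by
  have hQ : Q.map (Int.castRingHom (ZMod q)) ∈ monicFactorsMod (zetaInt ℓ K) q := by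
    rw [Multiset.mem_toFinset, Polynomial.mem_normalizedFactors_iff
      (map_monic_ne_zero (minpoly.monic (zetaInt ℓ K).isIntegral))]
    exact ⟨hirr, hmonic, by rwa [map_minpoly_zetaInt]⟩
  rw [← primesOverSpanEquivMonicFactorsMod_symm_apply_eq_span (zetaInt_not_dvd_exponent ℓ K q) hQ]
  exact ((primesOverSpanEquivMonicFactorsMod (zetaInt_not_dvd_exponent ℓ K q)).symm ⟨_, hQ⟩).prop

/-- Degree one certificate: a principal prime over `q` generated by `α`. -/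
theorem exists_isPrincipal_of_root (q : ℕ) [Fact q.Prime] (r : ℤ)
    (hr : ∑ i ∈ Finset.range ℓ, (r : ZMod q) ^ i = 0)
    (α β γ u v : 𝓞 K) (h1 : β * α = q) (h2 : γ * α = zetaInt ℓ K - r)
    (h3 : α = u * q + v * (zetaInt ℓ K - r)) :
    ∃ P ∈ primesOver (span {(q : ℤ)}) (𝓞 K), Submodule.IsPrincipal P := by
  refine ⟨span {(q : 𝓞 K), aeval (zetaInt ℓ K) (X - C r)},
    span_pair_mem_primesOver ℓ K q (X - C r) ?_ ?_ ?_, ⟨α, ?_⟩⟩
  · simpa using irreducible_X_sub_C (r : ZMod q)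
  · simpa using monic_X_sub_C (r : ZMod q)
  · have : (X - C r : ℤ[X]).map (Int.castRingHom (ZMod q)) = X - C (r : ZMod q) := by simp
    rw [this, dvd_iff_isRoot, IsRoot.def, cyclotomic_prime]
    simpa [eval_finsetSum] using hr
  · have haeval : aeval (zetaInt ℓ K) (X - C r) = zetaInt ℓ K - r := by simp
    rw [haeval, submodule_span_eq]
    apply le_antisymm
    · rw [span_le]
      intro x hx
      rcases hx with rfl | rfl
      · exact mem_span_singleton'.mpr ⟨β, h1⟩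
      · exact mem_span_singleton'.mpr ⟨γ, h2⟩
    · rw [span_le]
      intro x hx
      rw [Set.mem_singleton_iff] at hx
      subst hx
      exact mem_span_pair.mpr ⟨u, v, h3.symm⟩

end general

end Fermat.Agent.Lib.Kummer.PID

namespace Fermat.Agent.Lib.Kummer.PID

open NumberField Polynomial Ideal IsCyclotomicExtension.Rat IsCyclotomicExtension RingOfIntegers
  NumberField.Ideal

section criterion

variable (ℓ : ℕ) [hℓ : Fact ℓ.Prime] (K : Type*) [Field K] [NumberField K]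
  [hK : IsCyclotomicExtension {ℓ} ℚ K]

/-- If no power `q ^ k ≤ B` (`k ≥ 1`) is `≡ 1 mod ℓ`, every prime over `q` has norm `> B`. -/
theorem exists_prime_over_inertia_large (B q : ℕ) [Fact q.Prime] (hqℓ : q ≠ ℓ)
    (h : ∀ k, 0 < k → q ^ k ≤ B → (q : ZMod ℓ) ^ k ≠ 1) :
    ∃ P ∈ primesOver (span {(q : ℤ)}) (𝓞 K), B < q ^ P.inertiaDeg ℤ := by
  obtain ⟨⟨P, hP1, hP2⟩⟩ := (span {(q : ℤ)}).nonempty_primesOver (S := 𝓞 K)
  refine ⟨P, ⟨hP1, hP2⟩, ?_⟩
  have hm : ¬ q ∣ ℓ := fun hdvd ↦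
    hqℓ ((Nat.prime_dvd_prime_iff_eq (Fact.out : q.Prime) hℓ.out).mp hdvd)
  have hdeg := inertiaDeg_eq_of_not_dvd q K P hm
  rw [hdeg]
  by_contra hcon
  rw [not_lt] at hcon
  have hq0 : (q : ZMod ℓ) ≠ 0 := by
    rw [Ne, ZMod.natCast_eq_zero_iff]
    intro hdvd
    exact hqℓ ((Nat.prime_dvd_prime_iff_eq hℓ.out (Fact.out : q.Prime)).mp hdvd).symm
  have hfin : IsOfFinOrder (q : ZMod ℓ) :=
    isOfFinOrder_iff_pow_eq_one.mpr
      ⟨ℓ - 1, Nat.sub_pos_of_lt hℓ.out.one_lt, ZMod.pow_card_sub_one_eq_one hq0⟩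
  exact h _ hfin.orderOf_pos hcon (pow_orderOf_eq_one _)

/-- The prime over `ℓ` is principal. -/
theorem exists_isPrincipal_self :
    ∃ P ∈ primesOver (span {(ℓ : ℤ)}) (𝓞 K), Submodule.IsPrincipal P := by
  have hK' : IsCyclotomicExtension {ℓ ^ (0 + 1)} ℚ K := by simp [hK]
  have hζ : IsPrimitiveRoot (zeta ℓ ℚ K) (ℓ ^ (0 + 1)) := by simpa using zeta_spec ℓ ℚ K
  exact ⟨span {hζ.toInteger - 1},
    ⟨isPrime_span_zeta_sub_one ℓ 0 hζ, liesOver_span_zeta_sub_one ℓ 0 hζ⟩, ⟨_, rfl⟩⟩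

open scoped Real in
open Module InfinitePlace Nat in
/-- The Minkowski criterion with an explicit bound `B` and certificates. -/
theorem isPrincipalIdealRing_of_certificates (B : ℕ)
    (hM : ⌊(4 / π) ^ nrComplexPlaces K *
      ((finrank ℚ K)! / (finrank ℚ K) ^ (finrank ℚ K) * √|discr K|)⌋₊ ≤ B)
    (h : ∀ q, q.Prime → q ≤ B → q ≠ ℓ →
      (∀ k, 0 < k → q ^ k ≤ B → (q : ZMod ℓ) ^ k ≠ 1) ∨
        ∃ P ∈ primesOver (span {(q : ℤ)}) (𝓞 K), Submodule.IsPrincipal P) :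
    IsPrincipalIdealRing (𝓞 K) := by
  have : IsGalois ℚ K := IsCyclotomicExtension.isGalois {ℓ} ℚ K
  refine RingOfIntegers.isPrincipalIdealRing_of_isPrincipal_of_lt_or_isPrincipal_of_mem_primesOver_of_mem_Icc
    (fun q hq hqprime ↦ ?_)
  have hqB : q ≤ B := (Finset.mem_Icc.mp hq).2.trans hM
  have : Fact q.Prime := ⟨hqprime⟩
  by_cases hqℓ : q = ℓ
  · subst hqℓ
    obtain ⟨P, hP, hprinc⟩ := exists_isPrincipal_self q K
    exact ⟨P, hP, Or.inr hprinc⟩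
  rcases h q hqprime hqB hqℓ with h1 | ⟨P, hP, hprinc⟩
  · obtain ⟨P, hP, hlt⟩ := exists_prime_over_inertia_large ℓ K B q hqℓ h1
    exact ⟨P, hP, Or.inl (lt_of_le_of_lt hM hlt)⟩
  · exact ⟨P, hP, Or.inr hprinc⟩

end criterion

end Fermat.Agent.Lib.Kummer.PID
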