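import Fermat.Agent.Lib.Kummer.PIDBasic

/-!
# Minkowski bounds for `ℚ(ζ_ℓ)`, `ℓ ∈ {7, 11, 13}`
-/

namespace Fermat.Agent.Lib.Kummer.PID

open NumberField Polynomial Ideal IsCyclotomicExtension.Rat IsCyclotomicExtension RingOfIntegers
  NumberField.Ideal

open scoped Real
open Module InfinitePlace Nat

theorem fact_prime_seven : Fact (Nat.Prime 7) := ⟨by norm_num⟩
theorem fact_prime_eleven : Fact (Nat.Prime 11) := ⟨by norm_num⟩
theorem fact_prime_thirteen : Fact (Nat.Prime 13) := ⟨by norm_num⟩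

theorem four_div_pi_le : (4 : ℝ) / π ≤ 4 / 3.14 := by
  have := Real.pi_gt_d2
  gcongr

section
variable (ℓ : ℕ) [hℓ : Fact ℓ.Prime] (K : Type*) [Field K] [NumberField K]
  [hK : IsCyclotomicExtension {ℓ} ℚ K]

/-- General shape of the bound: `M K ≤ (4/3.14)^((ℓ-1)/2) * ((ℓ-1)!/(ℓ-1)^(ℓ-1) * s)` when
`ℓ^(ℓ-2) ≤ s^2`. -/
theorem minkowski_le (s : ℝ) (hs0 : 0 ≤ s) (hs : (ℓ : ℝ) ^ (ℓ - 2) ≤ s ^ 2) :
    (4 / π) ^ nrComplexPlaces K *
      ((finrank ℚ K)! / (finrank ℚ K) ^ (finrank ℚ K) * √|discr K|) ≤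
    (4 / 3.14) ^ ((ℓ - 1) / 2) * (((ℓ - 1)! : ℝ) / ((ℓ - 1 : ℕ) : ℝ) ^ (ℓ - 1) * s) := by
  have hfin : finrank ℚ K = ℓ - 1 := by
    rw [IsCyclotomicExtension.finrank (n := ℓ) K (Polynomial.cyclotomic.irreducible_rat hℓ.out.pos),
      totient_prime hℓ.out]
  have hr2 : nrComplexPlaces K = (ℓ - 1) / 2 := by
    rw [nrComplexPlaces_eq_totient_div_two ℓ, totient_prime hℓ.out]
  have hd : |((discr K : ℤ) : ℝ)| = (ℓ : ℝ) ^ (ℓ - 2) := by
    rw [← Int.cast_abs, discr_prime ℓ K, abs_mul, abs_pow, abs_neg, abs_one, one_pow, one_mul]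
    simp
  have hsq : √|((discr K : ℤ) : ℝ)| ≤ s := by
    rw [hd]
    exact Real.sqrt_le_iff.mpr ⟨hs0, hs⟩
  rw [hfin, hr2]
  have h4 := four_div_pi_le
  have hpos : (0 : ℝ) ≤ 4 / π := by positivity
  gcongr

end

end Fermat.Agent.Lib.Kummer.PID

namespace Fermat.Agent.Lib.Kummer.PID

open NumberField Polynomial Ideal IsCyclotomicExtension.Rat IsCyclotomicExtension RingOfIntegers
  NumberField.Ideal

open scoped Real
open Module InfinitePlace Nat

section
variable (K : Type*) [Field K] [NumberField K]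

theorem minkowski_floor_le_seven [IsCyclotomicExtension {7} ℚ K] :
    ⌊(4 / π) ^ nrComplexPlaces K *
      ((finrank ℚ K)! / (finrank ℚ K) ^ (finrank ℚ K) * √|discr K|)⌋₊ ≤ 4 := by
  have := fact_prime_seven
  have h := minkowski_le 7 K 130 (by norm_num) (by norm_num)
  refine Nat.lt_succ_iff.mp ((Nat.floor_lt (by positivity)).mpr (lt_of_le_of_lt h ?_))
  norm_num [Nat.factorial]

theorem minkowski_floor_le_eleven [IsCyclotomicExtension {11} ℚ K] :
    ⌊(4 / π) ^ nrComplexPlaces K *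
      ((finrank ℚ K)! / (finrank ℚ K) ^ (finrank ℚ K) * √|discr K|)⌋₊ ≤ 66 := by
  have := fact_prime_eleven
  have h := minkowski_le 11 K 48559 (by norm_num) (by norm_num)
  refine Nat.lt_succ_iff.mp ((Nat.floor_lt (by positivity)).mpr (lt_of_le_of_lt h ?_))
  norm_num [Nat.factorial]

theorem minkowski_floor_le_thirteen [IsCyclotomicExtension {13} ℚ K] :
    ⌊(4 / π) ^ nrComplexPlaces K *
      ((finrank ℚ K)! / (finrank ℚ K) ^ (finrank ℚ K) * √|discr K|)⌋₊ ≤ 312 := by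
  have := fact_prime_thirteen
  have h := minkowski_le 13 K 1338716 (by norm_num) (by norm_num)
  refine Nat.lt_succ_iff.mp ((Nat.floor_lt (by positivity)).mpr (lt_of_le_of_lt h ?_))
  norm_num [Nat.factorial]

end

end Fermat.Agent.Lib.Kummer.PID
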